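/-
S41 package C (helper3): the eigen-input of level raising.

From a normalised eigenform `f` of level `N` congruent to `W` modulo a maximal ideal `𝔪 ∋ p` of
`ℤ̄` we produce an INTEGRAL parabolic class `v ∈ L = tdmL N`, `v ∉ pL`, with
`(T_ℓ − a_ℓ(W)) v ∈ pL` for the good `ℓ ∤ N`, `ℓ ≠ p`, and `(T_q − ε(q+1)) v ∈ pL`, `ε = ±1`.

No duality is used: with `𝕋` the Hecke algebra acting faithfully on `L`, `𝔭 := χ_f⁻¹(𝔪)`,
`𝔭 L ≠ L` (Nakayama), `M := L / pL` is a finite `𝕋`-module with `𝔭 M ≠ M`, and then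
`M[𝔭] ≠ 0` by pure algebra (`lrc_exists_killed`).
-/
import Mathlib
import Fermat.Agent.Lib.T1.Mono.Lattice
import Fermat.Agent.Lib.T1.Asm.Res.EigenChar

set_option autoImplicit false
set_option linter.style.haveILetI false

namespace Fermat.Agent.LR

open Fermat.Agent.T1 CuspForm ModularFormClass

/-! ### abstract algebra -/

/-- a finite module `M` over a commutative ring with `P M ≠ M` contains a nonzero element killed
by the ideal `P`. -/
theorem lrc_exists_killed {R M : Type*} [CommRing R] [AddCommGroup M] [Module R M] [Finite M]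
    (P : Ideal R) (hP : P • (⊤ : Submodule R M) ≠ ⊤) :
    ∃ v : M, v ≠ 0 ∧ ∀ t ∈ P, t • v = 0 := by
  by_contra hcon
  push Not at hcon
  apply hP
  have h1 : ∀ v : M, (∀ t ∈ P, t • v = 0) → v = 0 := by
    intro v hv
    by_contra hv0
    obtain ⟨t, ht, htv⟩ := hcon v hv0
    exact htv (hv t ht)
  have hk : ∀ k : ℕ, ∀ v : M, (∀ t ∈ P ^ k, t • v = 0) → v = 0 := by
    intro k
    induction k with
    | zero =>
      intro v hv
      have := hv 1 (by simp)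
      simpa using this
    | succ k ih =>
      intro v hv
      apply ih
      intro s hs
      apply h1
      intro t ht
      rw [smul_smul]
      apply hv
      rw [pow_succ']
      exact Ideal.mul_mem_mul ht hs
  have hanti : Monotone (fun k : ℕ => OrderDual.toDual (P ^ k • (⊤ : Submodule R M))) := by
    intro a b hab
    show P ^ b • (⊤ : Submodule R M) ≤ P ^ a • (⊤ : Submodule R M)
    exact Submodule.smul_mono_left (Ideal.pow_le_pow_right hab)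
  obtain ⟨n, hn⟩ := IsArtinian.monotone_stabilizes (R := R) (M := M) ⟨_, hanti⟩
  have hstab : P ^ n • (⊤ : Submodule R M) = P • (P ^ n • (⊤ : Submodule R M)) := by
    have := hn (n + 1) (Nat.le_succ n)
    have h2 : P ^ n • (⊤ : Submodule R M) = P ^ (n + 1) • (⊤ : Submodule R M) := this
    conv_lhs => rw [h2]
    rw [pow_succ', mul_smul]
  obtain ⟨r, hr1, hr⟩ := Submodule.exists_sub_one_mem_and_smul_eq_zero_of_fg_of_le_smul P
    (P ^ n • (⊤ : Submodule R M)) (IsNoetherian.noetherian _) hstab.le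
  have hrM : ∀ x : M, r • x = 0 := by
    intro x
    apply hk n
    intro t ht
    rw [smul_comm]
    exact hr _ (Submodule.smul_mem_smul ht Submodule.mem_top)
  rw [eq_top_iff]
  intro x _
  have hx : x = -((r - 1) • x) := by
    rw [sub_smul, hrM, one_smul, zero_sub, neg_neg]
  rw [hx]
  exact neg_mem (Submodule.smul_mem_smul hr1 Submodule.mem_top)

/-- a commutative ring `𝕋` acting faithfully on a finitely generated abelian group `L`, `P` a proper
ideal of `𝕋` containing `p ≠ 0`: some `v ∉ pL` has `P v ⊆ pL`. -/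
theorem lrc_abstract_aux {𝕋 L : Type*} [CommRing 𝕋] [AddCommGroup L] [Module 𝕋 L]
    [Module.Finite ℤ L] (hfaith : ∀ r : 𝕋, (∀ x : L, r • x = 0) → r = 0)
    (P : Ideal 𝕋) (hP : P ≠ ⊤) {p : ℕ} (hp0 : p ≠ 0) (hpP : (p : 𝕋) ∈ P) :
    ∃ v : L, (¬ ∃ z, v = (p : ℤ) • z) ∧ ∀ t ∈ P, ∃ z, t • v = (p : ℤ) • z := by
  have hcast : ∀ z : L, (p : 𝕋) • z = (p : ℤ) • z := fun z => by
    rw [Nat.cast_smul_eq_nsmul, natCast_zsmul]
  have hcastZ : ∀ (a : ℤ) (z : L), (a : 𝕋) • z = a • z := fun a z =>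
    Int.cast_smul_eq_zsmul 𝕋 a z
  set pL : Submodule 𝕋 L := LinearMap.range (LinearMap.lsmul 𝕋 L (p : 𝕋)) with hpLdef
  have hpL : ∀ x, x ∈ pL ↔ ∃ z, x = (p : ℤ) • z := by
    intro x
    rw [hpLdef, LinearMap.mem_range]
    constructor
    · rintro ⟨z, rfl⟩
      exact ⟨z, by rw [LinearMap.lsmul_apply, hcast]⟩
    · rintro ⟨z, rfl⟩
      exact ⟨z, by rw [LinearMap.lsmul_apply, hcast]⟩
  have hspan : ∀ (s : Set L) (x : L), x ∈ Submodule.span ℤ s → x ∈ Submodule.span 𝕋 s := by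
    intro s x hx
    induction hx using Submodule.span_induction with
    | mem x hx => exact Submodule.subset_span hx
    | zero => exact zero_mem _
    | add x y _ _ hx hy => exact add_mem hx hy
    | smul a x _ hx =>
      rw [← hcastZ]
      exact Submodule.smul_mem _ _ hx
  have hfinT : Module.Finite 𝕋 L := by
    obtain ⟨s, hs⟩ := (Module.Finite.fg_top : (⊤ : Submodule ℤ L).FG)
    refine ⟨⟨s, ?_⟩⟩
    rw [eq_top_iff]
    intro x _
    exact hspan _ x (hs ▸ Submodule.mem_top)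
  have hfinM : Finite (L ⧸ pL) := by
    have hsurj : Function.Surjective (pL.mkQ.toAddMonoidHom.toIntLinearMap) := fun x => by
      obtain ⟨y, hy⟩ := Submodule.mkQ_surjective pL x
      exact ⟨y, hy⟩
    have hfz : Module.Finite ℤ (L ⧸ pL) := Module.Finite.of_surjective _ hsurj
    apply Module.finite_of_fg_torsion
    intro x
    refine ⟨⟨(p : ℤ), mem_nonZeroDivisors_of_ne_zero (by exact_mod_cast hp0)⟩, ?_⟩
    obtain ⟨y, rfl⟩ := Submodule.mkQ_surjective _ x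
    rw [Submonoid.mk_smul, ← map_zsmul, Submodule.mkQ_apply, Submodule.Quotient.mk_eq_zero, hpL]
    exact ⟨y, rfl⟩
  have hPM : P • (⊤ : Submodule 𝕋 (L ⧸ pL)) ≠ ⊤ := by
    intro htop
    have hL : (⊤ : Submodule 𝕋 L) ≤ P • (⊤ : Submodule 𝕋 L) := by
      intro x _
      have hx : pL.mkQ x ∈ P • (⊤ : Submodule 𝕋 (L ⧸ pL)) := by
        rw [htop]
        exact Submodule.mem_top
      have hmap : (P • (⊤ : Submodule 𝕋 L)).map pL.mkQ = P • (⊤ : Submodule 𝕋 (L ⧸ pL)) := by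
        rw [Submodule.map_smul'', Submodule.map_top, Submodule.range_mkQ]
      rw [← hmap] at hx
      obtain ⟨y, hy, hyx⟩ := hx
      have hd : x - y ∈ pL := by
        rw [← Submodule.Quotient.mk_eq_zero, Submodule.Quotient.mk_sub, sub_eq_zero]
        exact hyx.symm
      obtain ⟨z, hz⟩ := (hpL _).1 hd
      have hxy : x = y + (p : 𝕋) • z := by
        rw [hcast, ← hz]
        abel
      rw [hxy]
      exact add_mem hy (Submodule.smul_mem_smul hpP Submodule.mem_top)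
    obtain ⟨r, hr1, hr⟩ := Submodule.exists_sub_one_mem_and_smul_eq_zero_of_fg_of_le_smul P
      (⊤ : Submodule 𝕋 L) Module.Finite.fg_top hL
    have hr0 : r = 0 := hfaith r fun x => hr x Submodule.mem_top
    apply hP
    rw [Ideal.eq_top_iff_one]
    have h1 : (1 : 𝕋) = -(r - 1) := by rw [hr0]; ring
    rw [h1]
    exact neg_mem hr1
  obtain ⟨vb, hv0, hv⟩ := lrc_exists_killed P hPM
  obtain ⟨v, rfl⟩ := Submodule.mkQ_surjective _ vb
  refine ⟨v, ?_, ?_⟩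
  · intro hz
    apply hv0
    rw [Submodule.mkQ_apply, Submodule.Quotient.mk_eq_zero, hpL]
    exact hz
  · intro t ht
    have h2 := hv t ht
    rw [← map_smul, Submodule.mkQ_apply, Submodule.Quotient.mk_eq_zero, hpL] at h2
    exact h2

/-- the same for an arbitrary `ℤ`-module instance on `L`. -/
theorem lrc_abstract_module {𝕋 L : Type*} [CommRing 𝕋] [AddCommGroup L] [mZ : Module ℤ L]
    [Module 𝕋 L] [hfin : Module.Finite ℤ L] (hfaith : ∀ r : 𝕋, (∀ x : L, r • x = 0) → r = 0)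
    (P : Ideal 𝕋) (hP : P ≠ ⊤) {p : ℕ} (hp0 : p ≠ 0) (hpP : (p : 𝕋) ∈ P) :
    ∃ v : L, (¬ ∃ z, v = (p : ℤ) • z) ∧ ∀ t ∈ P, ∃ z, t • v = (p : ℤ) • z := by
  obtain rfl : mZ = AddCommGroup.toIntModule L := Subsingleton.elim _ _
  exact lrc_abstract_aux hfaith P hP hp0 hpP

/-- the same for a ring homomorphism `ρ : 𝕋 →+* End_ℤ(L)`. -/
theorem lrc_abstract {𝕋 L : Type*} [CommRing 𝕋] [AddCommGroup L] [Module ℤ L]
    [Module.Finite ℤ L] (ρ : 𝕋 →+* Module.End ℤ L) (hρ : Function.Injective ρ)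
    (P : Ideal 𝕋) (hP : P ≠ ⊤) {p : ℕ} (hp0 : p ≠ 0) (hpP : (p : 𝕋) ∈ P) :
    ∃ v : L, (¬ ∃ z, v = (p : ℤ) • z) ∧ ∀ t ∈ P, ∃ z, ρ t v = (p : ℤ) • z := by
  letI : Module 𝕋 L := Module.compHom L ρ
  exact lrc_abstract_module (𝕋 := 𝕋) (L := L) (fun r hr => hρ (by
    rw [map_zero]
    ext1 x
    exact hr x)) P hP hp0 hpP

/-! ### the Hecke algebra acting on the lattice -/

section concrete

variable {N : ℕ} [NeZero N]

/-- the Hecke algebra acts faithfully on the lattice. -/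
theorem lrc_tdmHecke_injective : Function.Injective (tdmHecke N) := by
  rw [injective_iff_map_eq_zero]
  intro t ht
  apply Subtype.ext
  apply LinearMap.ext
  intro f
  have h := tdmHecke_spec N t f 0
  rw [ht, LinearMap.baseChange_zero, LinearMap.zero_apply] at h
  have h2 := (tdmPhi N).injective (h.symm.trans (map_zero (tdmPhi N)).symm)
  exact congrArg Prod.fst h2

/-- **core of package C**: an integral class `v ∉ pL` on which every Hecke operator `t` acts, modulo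
`pL`, through the reduction of the eigencharacter of `f` modulo `𝔪`. -/
theorem lrc_core {p : ℕ} (hp0 : p ≠ 0) (f : CuspForm (CongruenceSubgroup.Gamma0 N) 2)
    (hf : f.IsNormalizedEigenform) (𝔪 : Ideal (integralClosure ℤ ℂ)) (hmax : 𝔪.IsMaximal)
    (hpm : (p : integralClosure ℤ ℂ) ∈ 𝔪) :
    ∃ v : ↥(tdmL N), (¬ ∃ z, v = (p : ℤ) • z) ∧
      ∀ (t : heckeAlgebra N 2 ∅) (a : ℤ), terEigenChar hf ∅ t - (a : integralClosure ℤ ℂ) ∈ 𝔪 →
        ∃ z, tdmHecke N t v - a • v = (p : ℤ) • z := by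
  let P : Ideal (heckeAlgebra N 2 ∅) := 𝔪.comap (terEigenChar hf ∅)
  have hP : P ≠ ⊤ := Ideal.comap_ne_top _ hmax.ne_top
  have hpP : ((p : ℕ) : heckeAlgebra N 2 ∅) ∈ P := by
    rw [Ideal.mem_comap, map_natCast]
    exact hpm
  obtain ⟨v, hv, hvP⟩ := lrc_abstract (tdmHecke N) lrc_tdmHecke_injective P hP hp0 hpP
  refine ⟨v, hv, ?_⟩
  intro t a hta
  have hmem : t - (a : heckeAlgebra N 2 ∅) ∈ P := by
    rw [Ideal.mem_comap, map_sub, map_intCast]
    exact hta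
  obtain ⟨z, hz⟩ := hvP _ hmem
  refine ⟨z, ?_⟩
  rw [← hz, map_sub, map_intCast]
  rfl

/-- the eigencharacter of `f` at `T_ℓ` is the element `a` of `ℤ̄` with `(a : ℂ) = a_ℓ(f)`. -/
theorem lrc_eigenChar_T {f : CuspForm (CongruenceSubgroup.Gamma0 N) 2}
    (hf : f.IsNormalizedEigenform) {ℓ : ℕ} (hℓ : ℓ.Prime) (hℓN : ¬ ℓ ∣ N)
    {a : integralClosure ℤ ℂ} (ha : (a : ℂ) = ModularFormClass.qCoeff f ℓ) :
    terEigenChar hf ∅ (heckeAlgebra.T hℓ hℓN (Set.notMem_empty ℓ)) = a :=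
  Subtype.ext (by rw [terEigenChar_T, ha])

/-- **package C (step (1) of the S41 brief)**: the eigen-input `v` of `lrf_main`. -/
theorem lrc_exists_eigen {p q : ℕ} (hq : q.Prime) (hqN : ¬ q ∣ N) (hp0 : p ≠ 0)
    {W : WeierstrassCurve ℤ}
    (f : CuspForm (CongruenceSubgroup.Gamma0 N) 2) (𝔪 : Ideal (integralClosure ℤ ℂ))
    (hf : f.IsNormalizedEigenform) (hmax : 𝔪.IsMaximal) (hpm : (p : integralClosure ℤ ℂ) ∈ 𝔪)
    (hcong : ∀ ℓ : ℕ, ℓ.Prime → W.IsGoodPrimeFor ℓ → ¬ ℓ ∣ N → ℓ ≠ p →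
      ∃ a : integralClosure ℤ ℂ, (a : ℂ) = ModularFormClass.qCoeff f ℓ ∧
        a - ((W.apOfModel ℓ : ℤ) : integralClosure ℤ ℂ) ∈ 𝔪)
    (hLR : ∃ a : integralClosure ℤ ℂ, (a : ℂ) = ModularFormClass.qCoeff f q ∧
      a ^ 2 - ((q : integralClosure ℤ ℂ) + 1) ^ 2 ∈ 𝔪) :
    ∃ ε : ℤ, (ε = 1 ∨ ε = -1) ∧ ∃ v : ↥(tdmL N), (¬ ∃ z, v = (p : ℤ) • z) ∧
      (∀ (ℓ : ℕ) (hℓ : ℓ.Prime) (hℓN : ¬ ℓ ∣ N), W.IsGoodPrimeFor ℓ → ℓ ≠ p →
        ∃ z, (tdmSysT N ℓ hℓ hℓN).homPar ℤ ℤ v - W.apOfModel ℓ • v = (p : ℤ) • z) ∧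
      (∃ z, (tdmSysT N q hq hqN).homPar ℤ ℤ v - (ε * ((q : ℤ) + 1)) • v = (p : ℤ) • z) := by
  obtain ⟨v, hv, hcore⟩ := lrc_core hp0 f hf 𝔪 hmax hpm
  obtain ⟨a, haq, ha⟩ := hLR
  have hχq := lrc_eigenChar_T hf hq hqN haq
  have hfac : a ^ 2 - ((q : integralClosure ℤ ℂ) + 1) ^ 2
      = (a - ((q : integralClosure ℤ ℂ) + 1)) * (a + ((q : integralClosure ℤ ℂ) + 1)) := by ring
  rw [hfac] at ha
  have hℓpart : ∀ (ℓ : ℕ) (hℓ : ℓ.Prime) (hℓN : ¬ ℓ ∣ N), W.IsGoodPrimeFor ℓ → ℓ ≠ p →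
      ∃ z, (tdmSysT N ℓ hℓ hℓN).homPar ℤ ℤ v - W.apOfModel ℓ • v = (p : ℤ) • z := by
    intro ℓ hℓ hℓN hgood hℓp
    obtain ⟨b, hbℓ, hb⟩ := hcong ℓ hℓ hgood hℓN hℓp
    have h := hcore (heckeAlgebra.T hℓ hℓN (Set.notMem_empty ℓ)) (W.apOfModel ℓ)
      (by rw [lrc_eigenChar_T hf hℓ hℓN hbℓ]; exact hb)
    rwa [tdmHecke_T] at h
  have hqpart : ∀ ε : ℤ, a - ((ε * ((q : ℤ) + 1) : ℤ) : integralClosure ℤ ℂ) ∈ 𝔪 →
      ∃ z, (tdmSysT N q hq hqN).homPar ℤ ℤ v - (ε * ((q : ℤ) + 1)) • v = (p : ℤ) • z := by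
    intro ε hε
    have h := hcore (heckeAlgebra.T hq hqN (Set.notMem_empty q)) (ε * ((q : ℤ) + 1))
      (by rw [hχq]; exact hε)
    rwa [tdmHecke_T] at h
  rcases hmax.isPrime.mem_or_mem ha with h | h
  · refine ⟨1, Or.inl rfl, v, hv, hℓpart, hqpart 1 ?_⟩
    have : ((1 * ((q : ℤ) + 1) : ℤ) : integralClosure ℤ ℂ) = (q : integralClosure ℤ ℂ) + 1 := by
      push_cast; ring
    rw [this]
    exact h
  · refine ⟨-1, Or.inr rfl, v, hv, hℓpart, hqpart (-1) ?_⟩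
    have : a - ((-1 * ((q : ℤ) + 1) : ℤ) : integralClosure ℤ ℂ)
        = a + ((q : integralClosure ℤ ℂ) + 1) := by
      push_cast; ring
    rw [this]
    exact h

end concrete

end Fermat.Agent.LR
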