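/-
S41 (level raising), package B, part 1 (helper1): **`cor ∘ w_q ∘ res = T_q`** on `Hom(Γ₀(N), A)`.

`W · rep_C(i) = g_i · rep_T(i)` with `g_i ∈ Γ₀(N)` (`g_none = [[a,1],[N c,q]]`, `g_(some b) = G`,
`W² = q G`), then the usual reindexing argument.
-/
import Mathlib
import Fermat.Agent.Lib.T2.F.ResCor
import Fermat.Agent.Lib.T2.F.WT

set_option autoImplicit false
set_option linter.unusedSectionVars false
set_option linter.unusedVariables false
set_option linter.style.haveILetI false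

open Matrix MatrixGroups CongruenceSubgroup Fermat.Agent.T1 Fermat.Agent.T2 ModularCurve
  Fermat.Agent.S24Lib ModularCurve.Period

namespace Fermat.Agent.LR

section CorWRes

variable (N' q : ℕ) [NeZero N'] [hq : Fact q.Prime] (h : ¬ q ∣ N')

/-- `W = γ₀ · diag(q, 1)` with `γ₀ = [[a, 1], [N' c, q]]` -/
theorem lrh_W_eq_mul_diag (a c : ℤ) :
    t2wMat N' q a c = !![a, 1; (N' : ℤ) * c, (q : ℤ)] * tdmRepT q none := by
  rw [t2wMat, tdmRepT]
  ext i j
  fin_cases i <;> fin_cases j <;> simp [Matrix.mul_apply, Fin.sum_univ_two] <;> ring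

/-- the elements `g_i ∈ Γ₀(N')` with `W · rep_C(i) = g_i · rep_T(i)` -/
theorem lrh_exists_g (i : Option (Fin q)) :
    ∃ g : Gamma0 N', t2wMat N' q (t2wA N' q) (t2wC N' q) * (t2fSysC N' q h).rep i
      = ((g : SL(2, ℤ)) : Matrix (Fin 2) (Fin 2) ℤ) * tdmRepT q i := by
  have hbez := t2w_bezout N' q hq.out h
  have hq0 : (q : ℤ) ≠ 0 := by exact_mod_cast hq.out.ne_zero
  rcases i with _ | b
  · refine ⟨⟨⟨!![t2wA N' q, 1; (N' : ℤ) * t2wC N' q, (q : ℤ)], ?_⟩, ?_⟩, ?_⟩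
    · rw [Matrix.det_fin_two_of]
      linear_combination hbez
    · rw [tdm_mem_Gamma0_iff]
      simp
    · rw [t2fSysC_rep, t2fRepC_none]
      simp only [Subgroup.coe_one, Matrix.SpecialLinearGroup.coe_one, Matrix.mul_one]
      exact lrh_W_eq_mul_diag N' q _ _
  · obtain ⟨G, hG, hG10⟩ := t2f_W_sq N' q (t2wA N' q) (t2wC N' q) hbez
    have hGN : (N' : ℤ) ∣ G 1 0 := Dvd.dvd.trans (by push_cast; exact Dvd.intro _ rfl) hG10
    refine ⟨⟨G, (tdm_mem_Gamma0_iff G).mpr hGN⟩, ?_⟩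
    rw [t2fSysC_rep, t2fRepC_some]
    apply smul_right_injective (Matrix (Fin 2) (Fin 2) ℤ) hq0
    show (q : ℤ) • (t2wMat N' q (t2wA N' q) (t2wC N' q) *
        t2fGamMat N' q (t2wA N' q) (t2wC N' q) ((b : ℕ) : ℤ))
      = (q : ℤ) • ((G : Matrix (Fin 2) (Fin 2) ℤ) * tdmRepT q (some b))
    rw [← Matrix.mul_smul, ← t2f5_W_mul_U, ← Matrix.mul_assoc, hG, Matrix.smul_mul]
    rfl

variable {A : Type*} [AddCommGroup A]

/-- **`cor ∘ w_q ∘ res = T_q`** on `Hom(Γ₀(N'), A)` -/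
theorem lrh_cor_w_res (φ : Additive (Gamma0 N') →+ A) :
    (t2fSysC N' q h).cor A ((t2fSysW N' q h).hom A (t2fRes (t2f5_Gamma0_le N' q) A φ))
      = (tdmSysT N' q hq.out h).hom A φ := by
  set C := t2fSysC N' q h with hC
  set V := t2fSysW N' q h with hV
  set T := tdmSysT N' q hq.out h with hT
  set W := t2wMat N' q (t2wA N' q) (t2wC N' q) with hW
  choose g hg using lrh_exists_g N' q h
  refine AddMonoidHom.ext fun δ' => ?_
  obtain ⟨δ, rfl⟩ := Additive.ofMul.surjective δ'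
  have hVap : ∀ (ψ : Additive (Gamma0 (N' * q)) →+ A) (x : Gamma0 (N' * q)),
      V.hom A ψ (Additive.ofMul x) = ψ (Additive.ofMul (V.eps x ())) := by
    intro ψ x
    rw [tdmCosetSys.hom_apply, Finset.univ_unique, Finset.sum_singleton]
  -- the key identity
  have key : ∀ i, Subgroup.inclusion (t2f5_Gamma0_le N' q) (V.eps (C.eps δ i) ()) * g (C.sigma δ i)
        = g i * T.eps δ i ∧ C.sigma δ i = T.sigma δ i := by
    intro i
    have hC1 : C.rep i * ((δ : SL(2, ℤ)) : Matrix (Fin 2) (Fin 2) ℤ)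
        = (((C.eps δ i : Gamma0 (N' * q)) : SL(2, ℤ)) : Matrix (Fin 2) (Fin 2) ℤ)
          * C.rep (C.sigma δ i) := C.rep_mul δ i
    have hV1 : W * (((C.eps δ i : Gamma0 (N' * q)) : SL(2, ℤ)) : Matrix (Fin 2) (Fin 2) ℤ)
        = (((V.eps (C.eps δ i) () : Gamma0 (N' * q)) : SL(2, ℤ)) : Matrix (Fin 2) (Fin 2) ℤ) * W :=
      V.rep_mul (C.eps δ i) ()
    have hT1 : T.rep i * ((δ : SL(2, ℤ)) : Matrix (Fin 2) (Fin 2) ℤ)
        = (((T.eps δ i : Gamma0 N') : SL(2, ℤ)) : Matrix (Fin 2) (Fin 2) ℤ)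
          * T.rep (T.sigma δ i) := T.rep_mul δ i
    have h1 : W * C.rep i * ((δ : SL(2, ℤ)) : Matrix (Fin 2) (Fin 2) ℤ)
        = (((Subgroup.inclusion (t2f5_Gamma0_le N' q) (V.eps (C.eps δ i) ()) * g (C.sigma δ i) :
            Gamma0 N') : SL(2, ℤ)) : Matrix (Fin 2) (Fin 2) ℤ) * T.rep (C.sigma δ i) := by
      rw [Matrix.mul_assoc, hC1, ← Matrix.mul_assoc, hV1, Matrix.mul_assoc, hg,
        Subgroup.coe_mul, Matrix.SpecialLinearGroup.coe_mul, ← Matrix.mul_assoc]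
      rfl
    have h2 : W * C.rep i * ((δ : SL(2, ℤ)) : Matrix (Fin 2) (Fin 2) ℤ)
        = (((g i * T.eps δ i : Gamma0 N') : SL(2, ℤ)) : Matrix (Fin 2) (Fin 2) ℤ)
          * T.rep (T.sigma δ i) := by
      rw [hg, Matrix.mul_assoc]
      show _ * (T.rep i * _) = _
      rw [hT1, Subgroup.coe_mul, Matrix.SpecialLinearGroup.coe_mul, ← Matrix.mul_assoc]
    obtain ⟨hj, hgg⟩ := t2f5_eq_of_mul_rep_eq T (h1.symm.trans h2)
    exact ⟨hgg, hj⟩
  have h1 : ∀ i, (V.hom A (t2fRes (t2f5_Gamma0_le N' q) A φ)) (Additive.ofMul (C.eps δ i))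
      = (φ (Additive.ofMul (g i)) + φ (Additive.ofMul (T.eps δ i)))
        - φ (Additive.ofMul (g (C.sigma δ i))) := by
    intro i
    rw [hVap, t2fRes_apply]
    have h2 := congrArg (fun x : Gamma0 N' => φ (Additive.ofMul x)) (key i).1
    simp only [ofMul_mul, map_add] at h2
    rw [eq_sub_iff_add_eq]
    exact h2
  rw [T2fSys₂.cor_apply, tdmCosetSys.hom_apply, Finset.sum_congr rfl fun i _ => h1 i,
    Finset.sum_sub_distrib, Finset.sum_add_distrib,
    Equiv.sum_comp (C.sigma δ) (fun i => φ (Additive.ofMul (g i))), add_sub_cancel_left]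

end CorWRes

end Fermat.Agent.LR
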