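/-
S41 (level raising), package B, part 2 (helper1): **`w_q` commutes with `U_r`** (`r ∣ N'`) on
`Hom(Γ₀(N' q), A)`.  Same method as `t2f5_W_T_comm` (Lib/T2/F/WT.lean).
-/
import Mathlib
import Fermat.Agent.Lib.T2.F.WT

set_option autoImplicit false
set_option linter.unusedSectionVars false
set_option linter.unusedVariables false
set_option linter.style.haveILetI false

open Matrix MatrixGroups CongruenceSubgroup Fermat.Agent.T1 Fermat.Agent.T2 ModularCurve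
  Fermat.Agent.S24Lib ModularCurve.Period

namespace Fermat.Agent.LR

/-- every integral matrix of determinant `r` with `N ∣ X 1 0` (`r ∣ N`) and `X 0 0` prime to `r`
lies in `Γ₀(N) U_j` for some `j` -/
theorem lrh_exists_repU {N r : ℕ} (hrN : r ∣ N) (hr0 : r ≠ 0) (X : Matrix (Fin 2) (Fin 2) ℤ)
    (hdet : X.det = r) (hN : (N : ℤ) ∣ X 1 0) (hcop : IsCoprime (X 0 0) (r : ℤ)) :
    ∃ j : Fin r, ∃ ε : Gamma0 N,
      X = ((ε : SL(2, ℤ)) : Matrix (Fin 2) (Fin 2) ℤ) * tdmRepU r j := by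
  have hr0' : (r : ℤ) ≠ 0 := by exact_mod_cast hr0
  rw [Matrix.det_fin_two] at hdet
  obtain ⟨b, t, ht⟩ := tdm_exists_aff_sol hr0 hcop (X 0 1)
  obtain ⟨m, hm⟩ : (r : ℤ) ∣ X 1 0 := (Int.natCast_dvd_natCast.mpr hrN).trans hN
  have h11 : (r : ℤ) ∣ X 1 1 - ((b : ℕ) : ℤ) * X 1 0 := by
    have h1 : (r : ℤ) ∣ X 0 0 * (X 1 1 - ((b : ℕ) : ℤ) * X 1 0) := by
      refine ⟨1 + X 1 0 * t, ?_⟩
      linear_combination hdet + X 1 0 * ht
    exact hcop.symm.dvd_of_dvd_mul_left h1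
  obtain ⟨s, hs⟩ := h11
  have hd : X 0 0 * s - t * X 1 0 = 1 := by
    apply mul_left_cancel₀ hr0'
    linear_combination hdet - X 0 0 * hs + X 1 0 * ht
  refine ⟨b, ⟨⟨!![X 0 0, t; X 1 0, s], by rw [Matrix.det_fin_two_of]; exact hd⟩,
    (tdm_mem_Gamma0_iff _).mpr (by simpa using hN)⟩, ?_⟩
  ext i j
  fin_cases i <;> fin_cases j <;> simp [tdmRepU, Matrix.mul_apply, Fin.sum_univ_two]
  · linear_combination ht
  · linear_combination hs

section WU

variable (N' q : ℕ) [NeZero N'] [hq : Fact q.Prime] (h : ¬ q ∣ N')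

variable {N' q} in
/-- `W U_i = u_i U_{τ i} W` with a permutation `τ` -/
theorem lrh_exists_tauU (r : ℕ) (hrN : r ∣ N') (hr0 : r ≠ 0) :
    ∃ (τ : Fin r ≃ Fin r) (u : Fin r → Gamma0 (N' * q)),
      ∀ i, (t2fSysW N' q h).rep () *
          (tdmSysU (N' * q) r (Dvd.dvd.mul_right hrN q) hr0).rep i
        = ((u i : SL(2, ℤ)) : Matrix (Fin 2) (Fin 2) ℤ)
          * (tdmSysU (N' * q) r (Dvd.dvd.mul_right hrN q) hr0).rep (τ i)
          * (t2fSysW N' q h).rep () := by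
  set W := t2wMat N' q (t2wA N' q) (t2wC N' q) with hW
  set U := tdmSysU (N' * q) r (Dvd.dvd.mul_right hrN q) hr0 with hU
  have hbez := t2w_bezout N' q hq.out h
  have hWdet : W.det ≠ 0 := (t2fSysW N' q h).det_ne_zero ()
  have hex : ∀ i : Fin r, ∃ j : Fin r, ∃ ε : Gamma0 (N' * q),
      W * tdmRepU r i = ((ε : SL(2, ℤ)) : Matrix (Fin 2) (Fin 2) ℤ) * tdmRepU r j * W := by
    intro i
    obtain ⟨X, hX, hXdet, hX10⟩ :=
      t2f5_W_mul_tri N' q (t2wA N' q) (t2wC N' q) hbez 1 ((i : ℕ) : ℤ) (r : ℤ)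
    -- `X 0 0 ≡ 1 mod r`
    have hcop : IsCoprime (X 0 0) (r : ℤ) := by
      obtain ⟨m, hm⟩ : (r : ℤ) ∣ (N' : ℤ) := Int.natCast_dvd_natCast.mpr hrN
      have h00 := congrFun (congrFun hX 0) 0
      simp only [t2wMat, Matrix.mul_apply, Fin.sum_univ_two, Matrix.of_apply,
        Matrix.cons_val', Matrix.cons_val_zero, Matrix.cons_val_one, Matrix.empty_val',
        Matrix.cons_val_fin_one] at h00
      -- h00 : q a * 1 + 1 * 0 = X 0 0 * (q a) + X 0 1 * (N' q c)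
      refine ⟨(q : ℤ) * t2wA N' q, ?_, ?_⟩
      · exact (X 0 1 * m * q * t2wC N' q) - m * t2wC N' q
      · rw [hm] at hbez h00
        linear_combination (-1 : ℤ) * h00 + hbez
    obtain ⟨j, ε, hε⟩ := lrh_exists_repU (Dvd.dvd.mul_right hrN q) hr0 X
      (by rw [hXdet]; ring) hX10 hcop
    exact ⟨j, ε, by rw [tdmRepU, hX, hε]⟩
  choose τ₀ u hu using hex
  have hinj : Function.Injective τ₀ := by
    intro i i' hii
    obtain ⟨g₀, hg₀⟩ := t2f5_W_surj N' q h (u i * (u i')⁻¹)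
    have h1 : W * tdmRepU r i
        = W * (((g₀ : SL(2, ℤ)) : Matrix (Fin 2) (Fin 2) ℤ) * tdmRepU r i') := by
      rw [← Matrix.mul_assoc, ← hg₀, Matrix.mul_assoc, hu i', hu i, hii, Subgroup.coe_mul,
        Matrix.SpecialLinearGroup.coe_mul]
      simp only [← Matrix.mul_assoc]
      congr 2
      rw [Matrix.mul_assoc, ← Matrix.SpecialLinearGroup.coe_mul, ← Subgroup.coe_mul,
        inv_mul_cancel, Subgroup.coe_one, Matrix.SpecialLinearGroup.coe_one, Matrix.mul_one]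
    have h2 := tdm_mul_left_cancel hWdet h1
    have h3 : (((1 : Gamma0 (N' * q)) : SL(2, ℤ)) : Matrix (Fin 2) (Fin 2) ℤ) * U.rep i
        = ((g₀ : SL(2, ℤ)) : Matrix (Fin 2) (Fin 2) ℤ) * U.rep i' := by
      rw [Subgroup.coe_one, Matrix.SpecialLinearGroup.coe_one, Matrix.one_mul]
      exact h2
    exact (t2f5_eq_of_mul_rep_eq U h3).1
  refine ⟨Equiv.ofBijective τ₀ (Finite.injective_iff_bijective.mp hinj), u, fun i => ?_⟩
  exact hu i

/-- **`w_q` commutes with `U_r`** (`r ∣ N'`) on `Hom(Γ₀(N' q), A)` -/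
theorem lrh_W_U_comm (r : ℕ) (hrN : r ∣ N') (hr0 : r ≠ 0) {A : Type*} [AddCommGroup A]
    (φ : Additive (Gamma0 (N' * q)) →+ A) :
    (tdmSysU (N' * q) r (Dvd.dvd.mul_right hrN q) hr0).hom A ((t2fSysW N' q h).hom A φ)
      = (t2fSysW N' q h).hom A
          ((tdmSysU (N' * q) r (Dvd.dvd.mul_right hrN q) hr0).hom A φ) := by
  obtain ⟨τ, u, hu⟩ := lrh_exists_tauU h r hrN hr0
  exact t2f5_hom_comm _ _ τ u hu φ

end WU

end Fermat.Agent.LR
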