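/-
S41 (level raising), package B, part 3 (helper1): **the Hecke/degeneracy identities on the Betti
lattices** `L_M = tdmL M = parabolicHoms ℤ Γ₀(M) ℤ`.

Operators (all `ℤ`-linear; `q` prime, `q ∤ N`):
* `lrhRes N q : L_N → L_{Nq}` (restriction), `lrhCor N q h : L_{Nq} → L_N` (transfer),
* `lrhW N q h : L_{Nq} → L_{Nq}` (Atkin–Lehner `w_q`),
* `lrhT M ℓ hℓ hℓM` (`T_ℓ`, `ℓ ∤ M`), `lrhU M r hrM hr0` (`U_r`, `r ∣ M`).
All are `abbrev`s of the literal expressions used elsewhere (`t2fResPar …`, `(t2fSysC N q h).corPar ℤ ℤ`,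
`(t2fSysW N q h).homPar ℤ ℤ`, `(tdmSysT …).homPar ℤ ℤ`, `(tdmSysU …).homPar ℤ ℤ`).
-/
import Mathlib
import Fermat.Agent.Lib.T2.F.NewAt
import Fermat.Agent.Lib.T1.Mono.Lattice
import Fermat.Agent.Lib.LR.HeckeCor
import Fermat.Agent.Lib.LR.HeckeWU

set_option autoImplicit false
set_option linter.unusedSectionVars false
set_option linter.unusedVariables false
set_option linter.style.haveILetI false

open Matrix MatrixGroups CongruenceSubgroup Fermat.Agent.T1 Fermat.Agent.T2 ModularCurve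
  Fermat.Agent.S24Lib ModularCurve.Period CuspForm

namespace Fermat.Agent.LR

/-! ### `res ∘ U_r = U_r ∘ res` on `Hom(Γ₀(·), A)` -/

section HomLevel

variable (N' q : ℕ) [NeZero N'] [hq : Fact q.Prime] (h : ¬ q ∣ N')
  {A : Type*} [AddCommGroup A]

theorem lrh_res_U (r : ℕ) (hrN : r ∣ N') (hr0 : r ≠ 0) (φ : Additive (Gamma0 N') →+ A) :
    t2fRes (t2f5_Gamma0_le N' q) A ((tdmSysU N' r hrN hr0).hom A φ)
      = (tdmSysU (N' * q) r (Dvd.dvd.mul_right hrN q) hr0).hom A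
          (t2fRes (t2f5_Gamma0_le N' q) A φ) := by
  set T := tdmSysU (N' * q) r (Dvd.dvd.mul_right hrN q) hr0 with hT
  set T' := tdmSysU N' r hrN hr0 with hT'
  refine AddMonoidHom.ext fun δ' => ?_
  obtain ⟨δ, rfl⟩ := Additive.ofMul.surjective δ'
  rw [t2fRes_apply, tdmCosetSys.hom_apply, tdmCosetSys.hom_apply]
  refine Finset.sum_congr rfl fun i _ => ?_
  rw [t2fRes_apply]
  have h1 : T'.rep i * (((Subgroup.inclusion (t2f5_Gamma0_le N' q) δ : Gamma0 N') : SL(2, ℤ)) :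
        Matrix (Fin 2) (Fin 2) ℤ)
      = (((Subgroup.inclusion (t2f5_Gamma0_le N' q) (T.eps δ i) : Gamma0 N') : SL(2, ℤ)) :
        Matrix (Fin 2) (Fin 2) ℤ) * T'.rep (T.sigma δ i) := T.rep_mul δ i
  rw [(T'.eq_of_rep_mul h1).2]

end HomLevel

/-! ### The lattice operators -/

section Lattice

variable (N q : ℕ) [NeZero N] [hq : Fact q.Prime] (h : ¬ q ∣ N)

/-- restriction `L_N → L_{Nq}` -/
noncomputable abbrev lrhRes : ↥(tdmL N) →ₗ[ℤ] ↥(tdmL (N * q)) :=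
  t2fResPar (t2f5_Gamma0_le N q) ℤ ℤ

/-- transfer `L_{Nq} → L_N` -/
noncomputable abbrev lrhCor : ↥(tdmL (N * q)) →ₗ[ℤ] ↥(tdmL N) :=
  (t2fSysC N q h).corPar ℤ ℤ

/-- the Atkin–Lehner involution `w_q` on `L_{Nq}` -/
noncomputable abbrev lrhW : ↥(tdmL (N * q)) →ₗ[ℤ] ↥(tdmL (N * q)) :=
  (t2fSysW N q h).homPar ℤ ℤ

/-- `T_ℓ` on `L_M` -/
noncomputable abbrev lrhT (M : ℕ) [NeZero M] (ℓ : ℕ) (hℓ : ℓ.Prime) (hℓM : ¬ ℓ ∣ M) :
    ↥(tdmL M) →ₗ[ℤ] ↥(tdmL M) :=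
  (tdmSysT M ℓ hℓ hℓM).homPar ℤ ℤ

/-- `U_r` on `L_M` -/
noncomputable abbrev lrhU (M : ℕ) [NeZero M] (r : ℕ) (hrM : r ∣ M) (hr0 : r ≠ 0) :
    ↥(tdmL M) →ₗ[ℤ] ↥(tdmL M) :=
  (tdmSysU M r hrM hr0).homPar ℤ ℤ

/-- `cor ∘ res = q + 1` -/
theorem lrh_cor_res (x : ↥(tdmL N)) : lrhCor N q h (lrhRes N q x) = ((q : ℤ) + 1) • x := by
  apply Subtype.ext
  show (t2fSysC N q h).cor ℤ (t2fRes (t2f5_Gamma0_le N q) ℤ (x : Additive (Gamma0 N) →+ ℤ)) = _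
  rw [t2f5_cor_res, Submodule.coe_smul]
  have : ((q : ℤ) + 1) = ((q + 1 : ℕ) : ℤ) := by push_cast; ring
  rw [this, natCast_zsmul]

/-- `res ∘ cor = 1 + U_q ∘ w_q` -/
theorem lrh_res_cor (y : ↥(tdmL (N * q))) :
    lrhRes N q (lrhCor N q h y)
      = y + lrhU (N * q) q (Dvd.intro_left N rfl) hq.out.ne_zero (lrhW N q h y) := by
  apply Subtype.ext
  show t2fRes (t2f5_Gamma0_le N q) ℤ ((t2fSysC N q h).cor ℤ
    (y : Additive (Gamma0 (N * q)) →+ ℤ)) = _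
  rw [t2f5_res_cor]
  rfl

/-- `w_q² = 1` -/
theorem lrh_W_W (y : ↥(tdmL (N * q))) : lrhW N q h (lrhW N q h y) = y := by
  apply Subtype.ext
  show (t2fSysW N q h).hom ℤ ((t2fSysW N q h).hom ℤ (y : Additive (Gamma0 (N * q)) →+ ℤ)) = _
  rw [t2fSysW_hom_hom]

/-- `cor ∘ w_q ∘ res = T_q` -/
theorem lrh_cor_W_res (x : ↥(tdmL N)) :
    lrhCor N q h (lrhW N q h (lrhRes N q x)) = lrhT N q hq.out h x := by
  apply Subtype.ext
  show (t2fSysC N q h).cor ℤ ((t2fSysW N q h).hom ℤ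
    (t2fRes (t2f5_Gamma0_le N q) ℤ (x : Additive (Gamma0 N) →+ ℤ))) = _
  rw [lrh_cor_w_res]
  rfl

/-- `res ∘ T_ℓ = T_ℓ ∘ res` -/
theorem lrh_res_T (l : ℕ) (hl : l.Prime) (hlNq : ¬ l ∣ N * q) (hlN : ¬ l ∣ N) (x : ↥(tdmL N)) :
    lrhRes N q (lrhT N l hl hlN x) = lrhT (N * q) l hl hlNq (lrhRes N q x) := by
  apply Subtype.ext
  show t2fRes (t2f5_Gamma0_le N q) ℤ ((tdmSysT N l hl hlN).hom ℤ
    (x : Additive (Gamma0 N) →+ ℤ)) = _
  rw [t2f5_res_T N q l hl hlNq hlN]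
  rfl

/-- `res ∘ U_r = U_r ∘ res` (`r ∣ N`) -/
theorem lrh_res_U_lat (r : ℕ) (hrN : r ∣ N) (hr0 : r ≠ 0) (x : ↥(tdmL N)) :
    lrhRes N q (lrhU N r hrN hr0 x)
      = lrhU (N * q) r (Dvd.dvd.mul_right hrN q) hr0 (lrhRes N q x) := by
  apply Subtype.ext
  show t2fRes (t2f5_Gamma0_le N q) ℤ ((tdmSysU N r hrN hr0).hom ℤ
    (x : Additive (Gamma0 N) →+ ℤ)) = _
  rw [lrh_res_U N q r hrN hr0]
  rfl

/-- `w_q ∘ T_ℓ = T_ℓ ∘ w_q` -/
theorem lrh_W_T (l : ℕ) (hl : l.Prime) (hlNq : ¬ l ∣ N * q) (y : ↥(tdmL (N * q))) :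
    lrhW N q h (lrhT (N * q) l hl hlNq y) = lrhT (N * q) l hl hlNq (lrhW N q h y) := by
  apply Subtype.ext
  show (t2fSysW N q h).hom ℤ ((tdmSysT (N * q) l hl hlNq).hom ℤ
    (y : Additive (Gamma0 (N * q)) →+ ℤ)) = (tdmSysT (N * q) l hl hlNq).hom ℤ
      ((t2fSysW N q h).hom ℤ (y : Additive (Gamma0 (N * q)) →+ ℤ))
  exact (t2f5_W_T_comm N q h l hl hlNq _).symm

/-- `w_q ∘ U_r = U_r ∘ w_q` (`r ∣ N`) -/
theorem lrh_W_U (r : ℕ) (hrN : r ∣ N) (hr0 : r ≠ 0) (y : ↥(tdmL (N * q))) :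
    lrhW N q h (lrhU (N * q) r (Dvd.dvd.mul_right hrN q) hr0 y)
      = lrhU (N * q) r (Dvd.dvd.mul_right hrN q) hr0 (lrhW N q h y) := by
  apply Subtype.ext
  show (t2fSysW N q h).hom ℤ ((tdmSysU (N * q) r (Dvd.dvd.mul_right hrN q) hr0).hom ℤ
    (y : Additive (Gamma0 (N * q)) →+ ℤ)) = (tdmSysU (N * q) r (Dvd.dvd.mul_right hrN q) hr0).hom ℤ
      ((t2fSysW N q h).hom ℤ (y : Additive (Gamma0 (N * q)) →+ ℤ))
  exact (lrh_W_U_comm N q h r hrN hr0 _).symm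

include h in
/-- `res` is injective -/
theorem lrh_res_injective : Function.Injective (lrhRes N q) := by
  rw [injective_iff_map_eq_zero]
  intro x hx
  have h1 := lrh_cor_res N q h x
  rw [hx, map_zero] at h1
  have hq1 : ((q : ℤ) + 1) ≠ 0 := by positivity
  rcases smul_eq_zero.mp h1.symm with h2 | h2
  · exact absurd h2 hq1
  · exact h2

/-! ### Commutativity at one level (through the Hecke algebra of the Prelude) -/

theorem lrh_T_T_comm (M : ℕ) [NeZero M] (l l' : ℕ) (hl : l.Prime) (hlM : ¬ l ∣ M) (hl' : l'.Prime)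
    (hl'M : ¬ l' ∣ M) (x : ↥(tdmL M)) :
    lrhT M l hl hlM (lrhT M l' hl' hl'M x) = lrhT M l' hl' hl'M (lrhT M l hl hlM x) := by
  have h1 := tdmHecke_T M hl hlM (Set.notMem_empty l)
  have h2 := tdmHecke_T M hl' hl'M (Set.notMem_empty l')
  have h3 : tdmHecke M (heckeAlgebra.T hl hlM (Set.notMem_empty l))
      * tdmHecke M (heckeAlgebra.T hl' hl'M (Set.notMem_empty l'))
      = tdmHecke M (heckeAlgebra.T hl' hl'M (Set.notMem_empty l'))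
        * tdmHecke M (heckeAlgebra.T hl hlM (Set.notMem_empty l)) := by
    rw [← map_mul, ← map_mul, mul_comm]
  rw [h1, h2] at h3
  exact congrArg (fun f : Module.End ℤ ↥(tdmL M) => f x) h3

theorem lrh_T_U_comm (M : ℕ) [NeZero M] (l r : ℕ) (hl : l.Prime) (hlM : ¬ l ∣ M) (hr : r.Prime)
    (hrM : r ∣ M) (x : ↥(tdmL M)) :
    lrhT M l hl hlM (lrhU M r hrM hr.ne_zero x) = lrhU M r hrM hr.ne_zero (lrhT M l hl hlM x) := by
  have h1 := tdmHecke_T M hl hlM (Set.notMem_empty l)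
  have h2 := tdmHecke_U M hr hrM (Set.notMem_empty r)
  have h3 : tdmHecke M (heckeAlgebra.T hl hlM (Set.notMem_empty l))
      * tdmHecke M (heckeAlgebra.U hr hrM (Set.notMem_empty r))
      = tdmHecke M (heckeAlgebra.U hr hrM (Set.notMem_empty r))
        * tdmHecke M (heckeAlgebra.T hl hlM (Set.notMem_empty l)) := by
    rw [← map_mul, ← map_mul, mul_comm]
  rw [h1, h2] at h3
  exact congrArg (fun f : Module.End ℤ ↥(tdmL M) => f x) h3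

theorem lrh_U_U_comm (M : ℕ) [NeZero M] (r r' : ℕ) (hr : r.Prime) (hrM : r ∣ M) (hr' : r'.Prime)
    (hr'M : r' ∣ M) (x : ↥(tdmL M)) :
    lrhU M r hrM hr.ne_zero (lrhU M r' hr'M hr'.ne_zero x)
      = lrhU M r' hr'M hr'.ne_zero (lrhU M r hrM hr.ne_zero x) := by
  have h1 := tdmHecke_U M hr hrM (Set.notMem_empty r)
  have h2 := tdmHecke_U M hr' hr'M (Set.notMem_empty r')
  have h3 : tdmHecke M (heckeAlgebra.U hr hrM (Set.notMem_empty r))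
      * tdmHecke M (heckeAlgebra.U hr' hr'M (Set.notMem_empty r'))
      = tdmHecke M (heckeAlgebra.U hr' hr'M (Set.notMem_empty r'))
        * tdmHecke M (heckeAlgebra.U hr hrM (Set.notMem_empty r)) := by
    rw [← map_mul, ← map_mul, mul_comm]
  rw [h1, h2] at h3
  exact congrArg (fun f : Module.End ℤ ↥(tdmL M) => f x) h3

/-! ### `cor` commutes with `T_ℓ` and `U_r` (through the injectivity of `res`) -/

/-- `cor ∘ T_ℓ = T_ℓ ∘ cor` -/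
theorem lrh_cor_T (l : ℕ) (hl : l.Prime) (hlNq : ¬ l ∣ N * q) (hlN : ¬ l ∣ N)
    (y : ↥(tdmL (N * q))) :
    lrhCor N q h (lrhT (N * q) l hl hlNq y) = lrhT N l hl hlN (lrhCor N q h y) := by
  apply lrh_res_injective N q h
  rw [lrh_res_T N q l hl hlNq hlN, lrh_res_cor, lrh_res_cor, map_add, lrh_W_T,
    lrh_T_U_comm (N * q) l q hl hlNq hq.out (Dvd.intro_left N rfl)]

/-- `cor ∘ U_r = U_r ∘ cor` (`r` prime, `r ∣ N`) -/
theorem lrh_cor_U (r : ℕ) (hr : r.Prime) (hrN : r ∣ N) (y : ↥(tdmL (N * q))) :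
    lrhCor N q h (lrhU (N * q) r (Dvd.dvd.mul_right hrN q) hr.ne_zero y)
      = lrhU N r hrN hr.ne_zero (lrhCor N q h y) := by
  apply lrh_res_injective N q h
  rw [lrh_res_U_lat N q r hrN hr.ne_zero, lrh_res_cor, lrh_res_cor, map_add,
    lrh_W_U N q h r hrN hr.ne_zero,
    lrh_U_U_comm (N * q) r q hr (Dvd.dvd.mul_right hrN q) hq.out (Dvd.intro_left N rfl)]

/-! ### The `q`-new sublattice `K = ker cor ∩ ker (cor ∘ w_q)` -/

/-- `K := ker β₁ ∩ ker β₂`, `β₁ = cor`, `β₂ = cor ∘ w_q` -/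
noncomputable def lrhK : Submodule ℤ ↥(tdmL (N * q)) :=
  LinearMap.ker (lrhCor N q h) ⊓ LinearMap.ker ((lrhCor N q h) ∘ₗ (lrhW N q h))

theorem lrh_mem_K {y : ↥(tdmL (N * q))} :
    y ∈ lrhK N q h ↔ lrhCor N q h y = 0 ∧ lrhCor N q h (lrhW N q h y) = 0 := by
  rw [lrhK, Submodule.mem_inf, LinearMap.mem_ker, LinearMap.mem_ker, LinearMap.comp_apply]

/-- `K` is stable under `w_q` -/
theorem lrh_W_mem_K {y : ↥(tdmL (N * q))} (hy : y ∈ lrhK N q h) : lrhW N q h y ∈ lrhK N q h := by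
  rw [lrh_mem_K] at hy ⊢
  exact ⟨hy.2, by rw [lrh_W_W]; exact hy.1⟩

/-- on `K`: `U_q (w_q y) = -y` -/
theorem lrh_U_W_of_mem_K {y : ↥(tdmL (N * q))} (hy : y ∈ lrhK N q h) :
    lrhU (N * q) q (Dvd.intro_left N rfl) hq.out.ne_zero (lrhW N q h y) = -y := by
  have h1 := lrh_res_cor N q h y
  rw [(lrh_mem_K N q h).mp hy |>.1, map_zero] at h1
  exact (neg_eq_of_add_eq_zero_right h1.symm).symm

/-- on `K`: `U_q = -w_q` -/
theorem lrh_U_of_mem_K {y : ↥(tdmL (N * q))} (hy : y ∈ lrhK N q h) :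
    lrhU (N * q) q (Dvd.intro_left N rfl) hq.out.ne_zero y = -lrhW N q h y := by
  have h1 := lrh_U_W_of_mem_K N q h (lrh_W_mem_K N q h hy)
  rwa [lrh_W_W] at h1

/-- on `K`: `U_q² = 1` -/
theorem lrh_U_U_of_mem_K {y : ↥(tdmL (N * q))} (hy : y ∈ lrhK N q h) :
    lrhU (N * q) q (Dvd.intro_left N rfl) hq.out.ne_zero
      (lrhU (N * q) q (Dvd.intro_left N rfl) hq.out.ne_zero y) = y := by
  rw [lrh_U_of_mem_K N q h hy, map_neg, lrh_U_W_of_mem_K N q h hy, neg_neg]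

/-- `K` is stable under `U_q` -/
theorem lrh_U_mem_K {y : ↥(tdmL (N * q))} (hy : y ∈ lrhK N q h) :
    lrhU (N * q) q (Dvd.intro_left N rfl) hq.out.ne_zero y ∈ lrhK N q h := by
  rw [lrh_U_of_mem_K N q h hy]
  exact (lrhK N q h).neg_mem (lrh_W_mem_K N q h hy)

/-- `K` is stable under `T_ℓ` (`ℓ ∤ N q`) -/
theorem lrh_T_mem_K (l : ℕ) (hl : l.Prime) (hlNq : ¬ l ∣ N * q) {y : ↥(tdmL (N * q))}
    (hy : y ∈ lrhK N q h) : lrhT (N * q) l hl hlNq y ∈ lrhK N q h := by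
  have hlN : ¬ l ∣ N := fun hd => hlNq (Dvd.dvd.mul_right hd q)
  rw [lrh_mem_K] at hy ⊢
  refine ⟨?_, ?_⟩
  · rw [lrh_cor_T N q h l hl hlNq hlN, hy.1, map_zero]
  · rw [lrh_W_T, lrh_cor_T N q h l hl hlNq hlN, hy.2, map_zero]

/-- `K` is stable under `U_r` (`r` prime, `r ∣ N`) -/
theorem lrh_Ur_mem_K (r : ℕ) (hr : r.Prime) (hrN : r ∣ N) {y : ↥(tdmL (N * q))}
    (hy : y ∈ lrhK N q h) :
    lrhU (N * q) r (Dvd.dvd.mul_right hrN q) hr.ne_zero y ∈ lrhK N q h := by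
  rw [lrh_mem_K] at hy ⊢
  refine ⟨?_, ?_⟩
  · rw [lrh_cor_U N q h r hr hrN, hy.1, map_zero]
  · rw [lrh_W_U N q h r hrN hr.ne_zero, lrh_cor_U N q h r hr hrN, hy.2, map_zero]

/-- `K` is saturated: `n • y ∈ K`, `n ≠ 0` implies `y ∈ K` -/
theorem lrh_K_saturated {n : ℤ} (hn : n ≠ 0) {y : ↥(tdmL (N * q))} (hy : n • y ∈ lrhK N q h) :
    y ∈ lrhK N q h := by
  rw [lrh_mem_K] at hy ⊢
  obtain ⟨h1, h2⟩ := hy
  rw [map_smul] at h1
  rw [map_smul, map_smul] at h2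
  exact ⟨(smul_eq_zero.mp h1).resolve_left hn, (smul_eq_zero.mp h2).resolve_left hn⟩

/-! ### Formal consequences of the duality interface (F2)

`B`, `B'` are alternating pairings on `L_N`, `L_{Nq}` with `B'(res x, y) = B(x, cor y)` and
`B'(w x, w y) = B'(x, y)`. -/

theorem lrh_skew_of_alt {L : Type*} [AddCommGroup L] (B : L →ₗ[ℤ] L →ₗ[ℤ] ℤ)
    (hBalt : ∀ x, B x x = 0) (x y : L) : B x y = -B y x := by
  have h1 := hBalt (x + y)
  simp only [map_add, LinearMap.add_apply, hBalt] at h1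
  linarith

/-- second adjunction: `B'(w res x, y) = B(x, cor (w y))` -/
theorem lrh_adj₂_of (B : ↥(tdmL N) →ₗ[ℤ] ↥(tdmL N) →ₗ[ℤ] ℤ)
    (B' : ↥(tdmL (N * q)) →ₗ[ℤ] ↥(tdmL (N * q)) →ₗ[ℤ] ℤ)
    (hadj : ∀ x y, B' (lrhRes N q x) y = B x (lrhCor N q h y))
    (hw : ∀ x y, B' (lrhW N q h x) (lrhW N q h y) = B' x y)
    (x : ↥(tdmL N)) (y : ↥(tdmL (N * q))) :
    B' (lrhW N q h (lrhRes N q x)) y = B x (lrhCor N q h (lrhW N q h y)) := by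
  rw [← hadj, ← hw (lrhW N q h (lrhRes N q x)) y, lrh_W_W]

/-- `T_q` (level `N`, `q ∤ N`) is self-adjoint -/
theorem lrh_T_selfadj_of (B : ↥(tdmL N) →ₗ[ℤ] ↥(tdmL N) →ₗ[ℤ] ℤ)
    (B' : ↥(tdmL (N * q)) →ₗ[ℤ] ↥(tdmL (N * q)) →ₗ[ℤ] ℤ)
    (hBalt : ∀ x, B x x = 0) (hB'alt : ∀ x, B' x x = 0)
    (hadj : ∀ x y, B' (lrhRes N q x) y = B x (lrhCor N q h y))
    (hw : ∀ x y, B' (lrhW N q h x) (lrhW N q h y) = B' x y)
    (x y : ↥(tdmL N)) :
    B (lrhT N q hq.out h x) y = B x (lrhT N q hq.out h y) := by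
  rw [← lrh_cor_W_res N q h x, ← lrh_cor_W_res N q h y, ← lrh_adj₂_of N q h B B' hadj hw,
    lrh_skew_of_alt B hBalt, ← hadj, lrh_skew_of_alt B' hB'alt, neg_neg]

end Lattice

end Fermat.Agent.LR
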