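/-
S41 package A (helper5): the pure lattice algebra of Ribet's level raising, `lrf_main`
(brief v1 of helper1, steps (2)–(4)).

`L = L_N`, `L' = L_{Nq}` finite free `ℤ`-lattices with unimodular alternating pairings `B`, `B'`,
degeneracy maps `α₁ α₂ : L → L'` with adjoints `β₁ β₂ : L' → L`, `β_i α_i = q + 1`,
`β₁ α₂ = β₂ α₁ = T_q`.  If `η = T_{i₀} - e` kills `ker (ᾱ₁ + ᾱ₂)` mod `p` (Ihara), is self-adjoint,
and `v ∉ pL` is an eigenclass mod `p` with `a_{i₀} ≢ e` and `T_q v ≡ ε (q+1) v`, then there is an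
integral class `k ∈ ker β₁ ∩ ker β₂`, `k ∉ pL'`, with the same eigenvalues mod `p (ker β₁ ∩ ker β₂)`.
-/
import Mathlib

set_option autoImplicit false
set_option linter.style.haveILetI false
set_option linter.unusedSectionVars false
set_option linter.unusedVariables false

namespace Fermat.Agent.LR

open Submodule

/-- a nonzero vector of an `𝔽_p`-vector space is detected by an additive functional -/
theorem lrf_sep_aux {p : ℕ} [Fact p.Prime] {Q : Type*} [AddCommGroup Q] [Module (ZMod p) Q]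
    (x : Q) (hx : x ≠ 0) : ∃ g : Q →+ ZMod p, g x ≠ 0 := by
  by_contra hcon
  push Not at hcon
  apply hx
  refine (Module.forall_dual_apply_eq_zero_iff (ZMod p) x).mp (fun f => ?_)
  exact hcon f.toAddMonoidHom

section Lattice

variable {Λ : Type*} [AddCommGroup Λ] [Module.Free ℤ Λ] [Module.Finite ℤ Λ]

/-- **separation mod `p`**: a point outside `J + pΛ` is detected by an integral functional which is
divisible by `p` on `J`. -/
theorem lrf_sep {p : ℕ} (hp : p.Prime) (J : Submodule ℤ Λ) (z : Λ)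
    (hz : ¬ ∃ (j : Λ) (y : Λ), j ∈ J ∧ z = j + (p : ℤ) • y) :
    ∃ φ : Λ →ₗ[ℤ] ℤ, (∀ j ∈ J, (p : ℤ) ∣ φ j) ∧ ¬ (p : ℤ) ∣ φ z := by
  classical
  haveI : Fact p.Prime := ⟨hp⟩
  -- the quotient `Λ / (J + pΛ)`
  set P : Submodule ℤ Λ := LinearMap.range ((p : ℤ) • (LinearMap.id : Λ →ₗ[ℤ] Λ)) with hP
  have hPmem : ∀ x : Λ, x ∈ P ↔ ∃ y, x = (p : ℤ) • y := by
    intro x
    rw [hP, LinearMap.mem_range]
    constructor
    · rintro ⟨y, hy⟩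
      exact ⟨y, by rw [← hy, LinearMap.smul_apply, LinearMap.id_apply]⟩
    · rintro ⟨y, hy⟩
      exact ⟨y, by rw [hy, LinearMap.smul_apply, LinearMap.id_apply]⟩
  set JP : Submodule ℤ Λ := J ⊔ P with hJP
  have hzJP : z ∉ JP := by
    intro hmem
    obtain ⟨j, hj, x, hx, hjx⟩ := Submodule.mem_sup.mp hmem
    obtain ⟨y, rfl⟩ := (hPmem x).mp hx
    exact hz ⟨j, y, hj, hjx.symm⟩
  have hkill : ∀ x : Λ ⧸ JP, p • x = 0 := by
    intro x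
    obtain ⟨y, rfl⟩ := JP.mkQ_surjective x
    rw [← map_nsmul, Submodule.mkQ_apply, Submodule.Quotient.mk_eq_zero]
    refine Submodule.mem_sup_right ((hPmem _).mpr ⟨y, ?_⟩)
    rw [natCast_zsmul]
  letI : Module (ZMod p) (Λ ⧸ JP) := AddCommGroup.zmodModule hkill
  have hq : JP.mkQ z ≠ 0 := by
    rw [Submodule.mkQ_apply, Ne, Submodule.Quotient.mk_eq_zero]
    exact hzJP
  obtain ⟨f, hf⟩ := lrf_sep_aux (p := p) (JP.mkQ z) hq
  -- the induced additive map `Λ → ZMod p` and its integral lift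
  let g : Λ →ₗ[ℤ] ZMod p := (f.comp JP.mkQ.toAddMonoidHom).toIntLinearMap
  have hg : ∀ x, g x = f (JP.mkQ x) := fun x => rfl
  obtain ⟨φ, hφ⟩ := Module.projective_lifting_property
    ((Int.castAddHom (ZMod p)).toIntLinearMap) g (fun x => ZMod.intCast_surjective x)
  have hφ' : ∀ x, ((φ x : ℤ) : ZMod p) = f (JP.mkQ x) := by
    intro x
    have := congrArg (fun h : Λ →ₗ[ℤ] ZMod p => h x) hφ
    simpa [hg] using this
  refine ⟨φ, fun j hj => ?_, fun hdvd => ?_⟩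
  · rw [← ZMod.intCast_zmod_eq_zero_iff_dvd, hφ']
    have : JP.mkQ j = 0 := by
      rw [Submodule.mkQ_apply, Submodule.Quotient.mk_eq_zero]
      exact Submodule.mem_sup_left hj
    rw [this, map_zero]
  · apply hf
    rw [← hφ', ZMod.intCast_zmod_eq_zero_iff_dvd]
    exact hdvd

/-- an alternating form is skew-symmetric -/
theorem lrf_skew (B : Λ →ₗ[ℤ] Λ →ₗ[ℤ] ℤ) (hBalt : ∀ x, B x x = 0) (x y : Λ) :
    B x y = - B y x := by
  have h := hBalt (x + y)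
  simp only [map_add, LinearMap.add_apply, hBalt, zero_add, add_zero] at h
  linarith

/-- for a unimodular alternating form, `B y · ≡ 0 mod p` forces `y ∈ pΛ` -/
theorem lrf_pdiv {p : ℕ} (hp : p.Prime) (B : Λ →ₗ[ℤ] Λ →ₗ[ℤ] ℤ) (hBalt : ∀ x, B x x = 0)
    (hB : ∀ f : Λ →ₗ[ℤ] ℤ, ∃ x, ∀ y, B x y = f y) (y : Λ) (hy : ∀ x, (p : ℤ) ∣ B y x) :
    ∃ y', y = (p : ℤ) • y' := by
  by_contra hcon
  obtain ⟨φ, -, hφ⟩ := lrf_sep hp (⊥ : Submodule ℤ Λ) y (by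
    rintro ⟨j, y', hj, hjy⟩
    rw [Submodule.mem_bot] at hj
    exact hcon ⟨y', by rw [hjy, hj, zero_add]⟩)
  obtain ⟨x0, hx0⟩ := hB φ
  apply hφ
  rw [← hx0 y, lrf_skew B hBalt]
  exact (dvd_neg).mpr (hy x0)

/-- cancelling a scalar prime to `p` modulo `pΛ` -/
theorem lrf_cancel {p : ℕ} (hp : p.Prime) (c : ℤ) (hc : ¬ (p : ℤ) ∣ c) (v : Λ)
    (h : ∃ z, c • v = (p : ℤ) • z) : ∃ z, v = (p : ℤ) • z := by
  obtain ⟨z, hz⟩ := h
  have hcop : IsCoprime (p : ℤ) c :=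
    (Prime.coprime_iff_not_dvd (Nat.prime_iff_prime_int.mp hp)).mpr hc
  obtain ⟨u, w, huw⟩ := hcop
  refine ⟨u • v + w • z, ?_⟩
  calc v = (u * (p : ℤ) + w * c) • v := by rw [huw, one_smul]
    _ = (p : ℤ) • (u • v + w • z) := by
        rw [add_smul, mul_smul, mul_smul, hz, smul_add, smul_comm u, smul_comm w]

end Lattice

section Steps

variable {L L' : Type*} [AddCommGroup L] [Module.Free ℤ L] [Module.Finite ℤ L]
  [AddCommGroup L'] [Module.Free ℤ L'] [Module.Finite ℤ L']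

/-- **step (3)**: Ihara's lemma dualised.  `η (L × L) ⊆ (β₁, β₂) L' + p (L × L)`. -/
theorem lrf_step3 {p : ℕ} (hp : p.Prime)
    (α₁ α₂ : L →ₗ[ℤ] L') (β₁ β₂ : L' →ₗ[ℤ] L)
    (B : L →ₗ[ℤ] L →ₗ[ℤ] ℤ) (B' : L' →ₗ[ℤ] L' →ₗ[ℤ] ℤ)
    (hB : ∀ f : L →ₗ[ℤ] ℤ, ∃ x, ∀ y, B x y = f y)
    (hB'alt : ∀ x, B' x x = 0) (hB' : ∀ f : L' →ₗ[ℤ] ℤ, ∃ x, ∀ y, B' x y = f y)
    (hadj₁ : ∀ x y, B' (α₁ x) y = B x (β₁ y)) (hadj₂ : ∀ x y, B' (α₂ x) y = B x (β₂ y))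
    (η : L →ₗ[ℤ] L) (hsa : ∀ x y, B (η x) y = B x (η y))
    (hIhara : ∀ x y : L, (∃ z, α₁ x + α₂ y = (p : ℤ) • z) →
      (∃ z, η x = (p : ℤ) • z) ∧ (∃ z, η y = (p : ℤ) • z))
    (w1 w2 : L) :
    ∃ (x' : L') (y1 y2 : L), η w1 = β₁ x' + (p : ℤ) • y1 ∧ η w2 = β₂ x' + (p : ℤ) • y2 := by
  by_contra hcon
  obtain ⟨φ, hφJ, hφz⟩ := lrf_sep hp (LinearMap.range (β₁.prod β₂)) ((η w1, η w2) : L × L) (by
    rintro ⟨j, y, ⟨x', rfl⟩, hjy⟩
    apply hcon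
    refine ⟨x', y.1, y.2, ?_, ?_⟩
    · have := congrArg Prod.fst hjy
      simpa using this
    · have := congrArg Prod.snd hjy
      simpa using this)
  obtain ⟨u1, hu1⟩ := hB (φ.comp (LinearMap.inl ℤ L L))
  obtain ⟨u2, hu2⟩ := hB (φ.comp (LinearMap.inr ℤ L L))
  have hφab : ∀ a b : L, φ (a, b) = B u1 a + B u2 b := by
    intro a b
    rw [hu1, hu2, LinearMap.comp_apply, LinearMap.comp_apply, LinearMap.inl_apply,
      LinearMap.inr_apply, ← map_add, Prod.mk_add_mk, add_zero, zero_add]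
  -- `α₁ u1 + α₂ u2 ∈ p L'`
  have hdiv : ∃ z, α₁ u1 + α₂ u2 = (p : ℤ) • z := by
    apply lrf_pdiv hp B' hB'alt hB'
    intro x'
    have h0 : (β₁.prod β₂) x' = (β₁ x', β₂ x') := rfl
    have h1 : B' (α₁ u1 + α₂ u2) x' = φ ((β₁.prod β₂) x') := by
      rw [h0, hφab, map_add, LinearMap.add_apply, hadj₁, hadj₂]
    rw [h1]
    exact hφJ _ (LinearMap.mem_range_self _ x')
  obtain ⟨⟨z1, hz1⟩, ⟨z2, hz2⟩⟩ := hIhara u1 u2 hdiv
  apply hφz
  rw [hφab, ← hsa, ← hsa, hz1, hz2, map_smul, map_smul, LinearMap.smul_apply,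
    LinearMap.smul_apply, ← smul_add, smul_eq_mul]
  exact dvd_mul_right _ _

end Steps

section Descent

/-- **step (4)**: the `p`-saturation descent.  If `η Λ ⊆ β M + p Λ`, `β η' = η β` and
`β k₀ ∈ p Λ`, then some `η'^m k₀` is congruent mod `p M` to an element of `ker β`. -/
theorem lrf_descent {Λ M : Type*} [AddCommGroup Λ] [Module.Finite ℤ Λ] [AddCommGroup M] (p : ℤ)
    (β : M →ₗ[ℤ] Λ) (η : Λ →ₗ[ℤ] Λ) (η' : M →ₗ[ℤ] M) (hcomm : ∀ x, β (η' x) = η (β x))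
    (h3 : ∀ w : Λ, ∃ (x' : M) (y : Λ), η w = β x' + p • y)
    (k₀ : M) (z₀ : Λ) (hk₀ : β k₀ = p • z₀) :
    ∃ (m : ℕ) (k₁ : M), β (η'^[m] k₀ - p • k₁) = 0 := by
  classical
  -- the chain `S j = {z | p ^ j • z ∈ range β}`
  let S : ℕ →o Submodule ℤ Λ :=
    ⟨fun j => (LinearMap.range β).comap ((p ^ j) • (LinearMap.id : Λ →ₗ[ℤ] Λ)), by
      intro i j hij z hz
      rw [Submodule.mem_comap, LinearMap.smul_apply, LinearMap.id_apply] at hz ⊢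
      obtain ⟨d, rfl⟩ := Nat.exists_eq_add_of_le hij
      rw [pow_add, mul_comm, mul_smul]
      exact Submodule.smul_mem _ _ hz⟩
  have hSmem : ∀ j z, z ∈ S j ↔ ∃ x, β x = p ^ j • z := by
    intro j z
    change z ∈ (LinearMap.range β).comap ((p ^ j) • (LinearMap.id : Λ →ₗ[ℤ] Λ)) ↔ _
    rw [Submodule.mem_comap, LinearMap.smul_apply, LinearMap.id_apply, LinearMap.mem_range]
  obtain ⟨m, hm⟩ := monotone_stabilizes_iff_noetherian.mpr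
    (inferInstance : IsNoetherian ℤ Λ) S
  have hSm : ∀ j z, z ∈ S j → z ∈ S m := by
    intro j z hz
    rcases le_total j m with h | h
    · exact S.monotone h hz
    · rw [hm j h]; exact hz
  -- `η (S m) ⊆ range β + p (S m)`
  have hstep : ∀ z ∈ S m, ∃ (x' : M) (s : Λ), s ∈ S m ∧ η z = β x' + p • s := by
    intro z hz
    obtain ⟨x', y, hy⟩ := h3 z
    refine ⟨x', y, hSm (m + 1) y ?_, hy⟩
    obtain ⟨x0, hx0⟩ := (hSmem m z).mp hz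
    refine (hSmem (m + 1) y).mpr ⟨η' x0 - p ^ m • x', ?_⟩
    rw [map_sub, hcomm, hx0, map_smul, map_smul, hy, smul_add, add_sub_cancel_left, pow_succ,
      mul_smul]
  -- `η^k (S m) ⊆ range β + p^k (S m)`
  have hiter : ∀ k : ℕ, ∀ z ∈ S m, ∃ (x' : M) (s : Λ), s ∈ S m ∧ η^[k] z = β x' + p ^ k • s := by
    intro k
    induction k with
    | zero =>
      intro z hz
      exact ⟨0, z, hz, by simp⟩
    | succ k ih =>
      intro z hz
      obtain ⟨x', s, hs, hx's⟩ := ih z hz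
      obtain ⟨x'', s', hs', hx''s'⟩ := hstep s hs
      refine ⟨η' x' + p ^ k • x'', s', hs', ?_⟩
      rw [Function.iterate_succ_apply', hx's, map_add, map_smul, hx''s', map_add, hcomm, map_smul,
        smul_add, pow_succ, mul_smul]
      abel
  -- commutation of iterates
  have hcommk : ∀ k : ℕ, ∀ x, β (η'^[k] x) = η^[k] (β x) := by
    intro k
    induction k with
    | zero => intro x; rfl
    | succ k ih =>
      intro x
      rw [Function.iterate_succ_apply', Function.iterate_succ_apply', hcomm, ih]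
  have hηk : ∀ k : ℕ, ∀ (c : ℤ) (x : Λ), η^[k] (c • x) = c • η^[k] x := by
    intro k
    induction k with
    | zero => intro c x; rfl
    | succ k ih =>
      intro c x
      rw [Function.iterate_succ_apply', Function.iterate_succ_apply', ih, map_smul]
  have hz₀ : z₀ ∈ S m := hSm 1 z₀ ((hSmem 1 z₀).mpr ⟨k₀, by rw [hk₀, pow_one]⟩)
  obtain ⟨x', s, hs, hx's⟩ := hiter m z₀ hz₀
  obtain ⟨x'', hx''⟩ := (hSmem m s).mp hs
  refine ⟨m, x' + x'', ?_⟩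
  rw [map_sub, hcommk, hk₀, hηk, hx's, map_smul, map_add, hx'', sub_self]

/-- iterating an operator on an eigenvector mod `p` -/
theorem lrf_iter_eigen {M : Type*} [AddCommGroup M] (p c : ℤ) (η' : M →ₗ[ℤ] M) (k₀ r₀ : M)
    (h : η' k₀ = c • k₀ + p • r₀) (n : ℕ) : ∃ r, η'^[n] k₀ = c ^ n • k₀ + p • r := by
  induction n with
  | zero => exact ⟨0, by simp⟩
  | succ n ih =>
    obtain ⟨r, hr⟩ := ih
    refine ⟨c ^ n • r₀ + η' r, ?_⟩
    rw [Function.iterate_succ_apply', hr, map_add, map_smul, map_smul, h, smul_add, smul_add,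
      pow_succ, mul_smul, smul_comm (c ^ n) p r₀]
    abel

end Descent

section Main

/-- **package A of S41** (brief v1): the lattice algebra of level raising. -/
theorem lrf_main {L L' : Type*} [AddCommGroup L] [Module.Free ℤ L] [Module.Finite ℤ L]
    [AddCommGroup L'] [Module.Free ℤ L'] [Module.Finite ℤ L'] {p : ℕ} (hp : p.Prime)
    {ι : Type*} (T : ι → L →ₗ[ℤ] L) (T' : ι → L' →ₗ[ℤ] L') (Tq : L →ₗ[ℤ] L)
    (α₁ α₂ : L →ₗ[ℤ] L') (β₁ β₂ : L' →ₗ[ℤ] L)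
    (B : L →ₗ[ℤ] L →ₗ[ℤ] ℤ) (B' : L' →ₗ[ℤ] L' →ₗ[ℤ] ℤ)
    (hBalt : ∀ x, B x x = 0) (hB : ∀ f : L →ₗ[ℤ] ℤ, ∃ x, ∀ y, B x y = f y)
    (hB'alt : ∀ x, B' x x = 0) (hB' : ∀ f : L' →ₗ[ℤ] ℤ, ∃ x, ∀ y, B' x y = f y)
    (hadj₁ : ∀ x y, B' (α₁ x) y = B x (β₁ y)) (hadj₂ : ∀ x y, B' (α₂ x) y = B x (β₂ y))
    (hα₁ : ∀ i x, α₁ (T i x) = T' i (α₁ x)) (hα₂ : ∀ i x, α₂ (T i x) = T' i (α₂ x))
    (hβ₁ : ∀ i y, β₁ (T' i y) = T i (β₁ y)) (hβ₂ : ∀ i y, β₂ (T' i y) = T i (β₂ y))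
    (q : ℤ) (h11 : ∀ x, β₁ (α₁ x) = (q + 1) • x) (h22 : ∀ x, β₂ (α₂ x) = (q + 1) • x)
    (h12 : ∀ x, β₁ (α₂ x) = Tq x) (h21 : ∀ x, β₂ (α₁ x) = Tq x)
    (a : ι → ℤ) (i₀ : ι) (e : ℤ) (hne : ¬ (p : ℤ) ∣ a i₀ - e)
    (hsa : ∀ x y, B (T i₀ x) y = B x (T i₀ y))
    (hIhara : ∀ x y : L, (∃ z, α₁ x + α₂ y = (p : ℤ) • z) →
      (∃ z, T i₀ x - e • x = (p : ℤ) • z) ∧ (∃ z, T i₀ y - e • y = (p : ℤ) • z))
    (ε : ℤ) (hε : ε = 1 ∨ ε = -1) (v : L) (hv : ¬ ∃ z, v = (p : ℤ) • z)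
    (hvT : ∀ i, ∃ z, T i v - a i • v = (p : ℤ) • z)
    (hvq : ∃ z, Tq v - (ε * (q + 1)) • v = (p : ℤ) • z) :
    ∃ k : L', β₁ k = 0 ∧ β₂ k = 0 ∧ (¬ ∃ z, k = (p : ℤ) • z) ∧
      ∀ i, ∃ z : L', β₁ z = 0 ∧ β₂ z = 0 ∧ T' i k - a i • k = (p : ℤ) • z := by
  classical
  have hp0 : (p : ℤ) ≠ 0 := by exact_mod_cast hp.ne_zero
  have hεsq : ε * ε = 1 := by rcases hε with h | h <;> rw [h] <;> norm_num
  -- the operators `η = T i₀ - e`, `η' = T' i₀ - e`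
  set η : L →ₗ[ℤ] L := T i₀ - e • LinearMap.id with hη
  set η' : L' →ₗ[ℤ] L' := T' i₀ - e • LinearMap.id with hη'
  have hηa : ∀ x, η x = T i₀ x - e • x := fun x => rfl
  have hη'a : ∀ x, η' x = T' i₀ x - e • x := fun x => rfl
  have hsaη : ∀ x y, B (η x) y = B x (η y) := by
    intro x y
    rw [hηa, hηa, map_sub, LinearMap.sub_apply, map_sub, hsa, map_smul, map_smul,
      LinearMap.smul_apply]
  have hIharaη : ∀ x y : L, (∃ z, α₁ x + α₂ y = (p : ℤ) • z) →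
      (∃ z, η x = (p : ℤ) • z) ∧ (∃ z, η y = (p : ℤ) • z) := hIhara
  -- step (2): the class `k₀ = α₁ v - ε α₂ v`
  obtain ⟨zq, hzq⟩ := hvq
  have hTq : Tq v = (ε * (q + 1)) • v + (p : ℤ) • zq := by rw [← hzq]; abel
  obtain ⟨k₀, hk₀⟩ : ∃ k₀ : L', k₀ = α₁ v - ε • α₂ v := ⟨_, rfl⟩
  have hβ₁k₀ : β₁ k₀ = (p : ℤ) • (-(ε • zq)) := by
    rw [hk₀, map_sub, map_smul, h11, h12, hTq, smul_add, smul_smul, ← mul_assoc, hεsq, one_mul]
    module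
  have hβ₂k₀ : β₂ k₀ = (p : ℤ) • zq := by
    rw [hk₀, map_sub, map_smul, h21, h22, hTq]
    module
  have hk₀T : ∀ i, ∃ z, T' i k₀ - a i • k₀ = (p : ℤ) • z := by
    intro i
    obtain ⟨z, hz⟩ := hvT i
    refine ⟨α₁ z - ε • α₂ z, ?_⟩
    have h1 : T' i k₀ - a i • k₀ = α₁ (T i v - a i • v) - ε • α₂ (T i v - a i • v) := by
      rw [hk₀, map_sub, map_smul, ← hα₁, ← hα₂, map_sub, map_sub, map_smul, map_smul]
      module
    rw [h1, hz, map_smul, map_smul]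
    module
  have hk₀ndiv : ¬ ∃ z, k₀ = (p : ℤ) • z := by
    rintro ⟨z, hz⟩
    have h1 : ∃ z, α₁ v + α₂ (-(ε • v)) = (p : ℤ) • z := by
      refine ⟨z, ?_⟩
      rw [← hz, hk₀, map_neg, map_smul]
      abel
    obtain ⟨⟨z1, hz1⟩, -⟩ := hIhara v (-(ε • v)) h1
    obtain ⟨z2, hz2⟩ := hvT i₀
    apply hv
    apply lrf_cancel hp (a i₀ - e) hne v
    refine ⟨z1 - z2, ?_⟩
    rw [smul_sub, ← hz1, ← hz2]
    module
  -- `η' k₀ ≡ (a i₀ - e) k₀`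
  obtain ⟨r₀, hr₀⟩ := hk₀T i₀
  have hη'k₀ : η' k₀ = (a i₀ - e) • k₀ + (p : ℤ) • r₀ := by
    rw [hη'a, ← hr₀]
    module
  -- step (3) on `L × L`
  set β : L' →ₗ[ℤ] L × L := β₁.prod β₂ with hβ
  have hβa : ∀ x, β x = (β₁ x, β₂ x) := fun x => rfl
  set ηΛ : L × L →ₗ[ℤ] L × L := η.prodMap η with hηΛ
  have hηΛa : ∀ w : L × L, ηΛ w = (η w.1, η w.2) := fun w => rfl
  have hcomm : ∀ x, β (η' x) = ηΛ (β x) := by
    intro x
    rw [hβa, hηΛa, hβa, hη'a, hηa, hηa, map_sub, map_sub, map_smul, map_smul, hβ₁, hβ₂]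
  have h3 : ∀ w : L × L, ∃ (x' : L') (y : L × L), ηΛ w = β x' + (p : ℤ) • y := by
    intro w
    obtain ⟨x', y1, y2, h1, h2⟩ := lrf_step3 hp α₁ α₂ β₁ β₂ B B' hB hB'alt hB' hadj₁ hadj₂ η hsaη
      hIharaη w.1 w.2
    refine ⟨x', (y1, y2), ?_⟩
    rw [hηΛa, hβa, h1, h2]
    rfl
  have hβk₀ : β k₀ = (p : ℤ) • ((-(ε • zq), zq) : L × L) := by
    rw [hβa, hβ₁k₀, hβ₂k₀]
    rfl
  -- step (4)
  obtain ⟨m, k₁, hk⟩ := lrf_descent (p : ℤ) β ηΛ η' hcomm h3 k₀ _ hβk₀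
  obtain ⟨r, hr⟩ := lrf_iter_eigen (p : ℤ) (a i₀ - e) η' k₀ r₀ hη'k₀ m
  obtain ⟨k, hkdef⟩ : ∃ k : L', k = η'^[m] k₀ - (p : ℤ) • k₁ := ⟨_, rfl⟩
  rw [← hkdef] at hk
  have hkc : k = (a i₀ - e) ^ m • k₀ + (p : ℤ) • (r - k₁) := by
    rw [hkdef, hr]
    module
  have hβ₁k : β₁ k = 0 := by
    have := congrArg Prod.fst hk
    rwa [hβa] at this
  have hβ₂k : β₂ k = 0 := by
    have := congrArg Prod.snd hk
    rwa [hβa] at this
  have hcm : ¬ (p : ℤ) ∣ (a i₀ - e) ^ m := fun h =>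
    hne ((Nat.prime_iff_prime_int.mp hp).dvd_of_dvd_pow h)
  refine ⟨k, hβ₁k, hβ₂k, ?_, ?_⟩
  · rintro ⟨z, hz⟩
    apply hk₀ndiv
    apply lrf_cancel hp ((a i₀ - e) ^ m) hcm k₀
    refine ⟨z - (r - k₁), ?_⟩
    rw [smul_sub, ← hz, hkc]
    abel
  · intro i
    obtain ⟨zi, hzi⟩ := hk₀T i
    have hz : T' i k - a i • k
        = (p : ℤ) • ((a i₀ - e) ^ m • zi + (T' i (r - k₁) - a i • (r - k₁))) := by
      have h1 : T' i k - a i • k = (a i₀ - e) ^ m • (T' i k₀ - a i • k₀)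
          + (p : ℤ) • (T' i (r - k₁) - a i • (r - k₁)) := by
        rw [hkc, map_add, map_smul, map_smul]
        module
      rw [h1, hzi]
      module
    refine ⟨_, ?_, ?_, hz⟩
    · have h0 : (p : ℤ) • β₁ ((a i₀ - e) ^ m • zi + (T' i (r - k₁) - a i • (r - k₁))) = 0 := by
        rw [← map_smul, ← hz, map_sub, map_smul, hβ₁, hβ₁k, map_zero, smul_zero, sub_zero]
      exact (smul_eq_zero.mp h0).resolve_left hp0
    · have h0 : (p : ℤ) • β₂ ((a i₀ - e) ^ m • zi + (T' i (r - k₁) - a i • (r - k₁))) = 0 := by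
        rw [← map_smul, ← hz, map_sub, map_smul, hβ₂, hβ₂k, map_zero, smul_zero, sub_zero]
      exact (smul_eq_zero.mp h0).resolve_left hp0

end Main

end Fermat.Agent.LR
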