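/-
S41 (level raising), package C, part 1 (helper1): **the abstract eigen-input lemma**.

`L` a finite free `ℤ`-module with a unimodular alternating pairing `B`; `R` a commutative ring acting
faithfully on `L` by self-adjoint operators; `𝔫` a proper ideal of `R` containing `p`.  Then there is
`v ∈ L ∖ pL` with `𝔫 v ⊆ pL` (i.e. `(L/pL)[𝔫] ≠ 0`).   Proof: Nakayama gives `𝔫 L ≠ L`; a functional
`λ` which is `≡ 0 mod p` on `𝔫 L` but not on `L` (`lrf_sep`) is `B(v, ·)`.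
-/
import Mathlib
import Fermat.Agent.Lib.LR.Alg

set_option autoImplicit false
set_option linter.unusedSectionVars false
set_option linter.unusedVariables false
set_option linter.style.haveILetI false

namespace Fermat.Agent.LR

theorem lrn_abs {L : Type*} [AddCommGroup L] [Module.Free ℤ L] [Module.Finite ℤ L]
    {p : ℕ} (hp : p.Prime) (B : L →ₗ[ℤ] L →ₗ[ℤ] ℤ)
    (hBalt : ∀ x, B x x = 0) (hB : ∀ f : L →ₗ[ℤ] ℤ, ∃ x, ∀ y, B x y = f y)
    {R : Type*} [CommRing R] (ρ : R →+* Module.End ℤ L) (hρ : Function.Injective ρ)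
    (hsa : ∀ (t : R) (x y : L), B (ρ t x) y = B x (ρ t y))
    (𝔫 : Ideal R) (h𝔫 : 𝔫 ≠ ⊤) (hp𝔫 : (p : R) ∈ 𝔫) :
    ∃ v : L, (¬ ∃ z, v = (p : ℤ) • z) ∧ ∀ t ∈ 𝔫, ∃ z, ρ t v = (p : ℤ) • z := by
  classical
  -- `L` as an `R`-module
  letI : Module R L := Module.compHom L ρ
  have hsmul : ∀ (t : R) (x : L), t • x = ρ t x := fun _ _ => rfl
  haveI : IsScalarTower ℤ R L := ⟨fun n t x => by
    rw [hsmul, hsmul, map_zsmul, LinearMap.smul_apply]⟩
  haveI : Module.Finite R L := Module.Finite.of_restrictScalars_finite ℤ R L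
  -- Nakayama
  have hne : 𝔫 • (⊤ : Submodule R L) ≠ ⊤ := by
    intro htop
    obtain ⟨r, hr1, hr0⟩ := Submodule.exists_sub_one_mem_and_smul_eq_zero_of_fg_of_le_smul 𝔫
      (⊤ : Submodule R L) Module.Finite.fg_top (le_of_eq htop.symm)
    have hr : r = 0 := by
      apply hρ
      rw [map_zero]
      refine LinearMap.ext fun x => ?_
      rw [LinearMap.zero_apply, ← hsmul]
      exact hr0 x Submodule.mem_top
    apply h𝔫
    rw [Ideal.eq_top_iff_one]
    rw [hr, zero_sub] at hr1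
    have := 𝔫.neg_mem hr1
    rwa [neg_neg] at this
  obtain ⟨x₀, hx₀⟩ : ∃ x₀ : L, x₀ ∉ 𝔫 • (⊤ : Submodule R L) := by
    by_contra hcon
    push Not at hcon
    exact hne (eq_top_iff.mpr fun x _ => hcon x)
  -- the `ℤ`-submodule `J = 𝔫 L`
  set J : Submodule ℤ L := (𝔫 • (⊤ : Submodule R L)).restrictScalars ℤ with hJ
  have hJmem : ∀ x, x ∈ J ↔ x ∈ 𝔫 • (⊤ : Submodule R L) := fun x => Iff.rfl
  have hpJ : ∀ y : L, (p : ℤ) • y ∈ J := by
    intro y
    rw [hJmem]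
    have h1 : (p : ℤ) • y = (p : R) • y := by
      rw [hsmul, map_natCast]
      simp
    rw [h1]
    exact Submodule.smul_mem_smul hp𝔫 Submodule.mem_top
  obtain ⟨φ, hφJ, hφx₀⟩ := lrf_sep hp J x₀ (by
    rintro ⟨j, y, hj, hjy⟩
    apply hx₀
    rw [← hJmem, hjy]
    exact J.add_mem hj (hpJ y))
  obtain ⟨v, hv⟩ := hB φ
  refine ⟨v, ?_, ?_⟩
  · rintro ⟨z, rfl⟩
    apply hφx₀
    rw [← hv x₀, map_smul, LinearMap.smul_apply]
    exact ⟨B z x₀, by rw [smul_eq_mul]⟩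
  · intro t ht
    apply lrf_pdiv hp B hBalt hB
    intro y
    rw [hsa, hv]
    apply hφJ
    rw [hJmem, ← hsmul]
    exact Submodule.smul_mem_smul ht Submodule.mem_top

end Fermat.Agent.LR
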