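/-
S41 (level raising), package C, part 2 (helper1): **the eigen-input** (step (1) of the brief).

Given a normalised eigenform `f` of level `N`, a maximal ideal `𝔪 ∋ p` of `ℤ̄`, and a unimodular
alternating pairing `B` on `L_N = tdmL N` for which all `T_ℓ` (`ℓ ∤ N`) are self-adjoint, there is
`v ∈ L_N ∖ p L_N` such that `(T_ℓ - a) v ∈ p L_N` for every prime `ℓ ∤ N` and every integer `a` with
`a_ℓ(f) ≡ a mod 𝔪` (`lrn_eigen_input`).  `lrn_sign` extracts the sign `ε` from `a_q² ≡ (q+1)²`.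
-/
import Mathlib
import Fermat.Agent.Lib.LR.EigenInAbs
import Fermat.Agent.Lib.LR.HeckeLat
import Fermat.Agent.Lib.T1.Asm.Res.EigenChar

set_option autoImplicit false
set_option linter.unusedSectionVars false
set_option linter.unusedVariables false
set_option linter.style.haveILetI false
set_option linter.unusedSectionVars false
set_option linter.unusedVariables false
set_option linter.style.haveILetI false

open scoped TensorProduct
open Matrix MatrixGroups CongruenceSubgroup Fermat.Agent.T1 Fermat.Agent.T2 ModularCurve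
  Fermat.Agent.S24Lib ModularCurve.Period CuspForm

namespace Fermat.Agent.LR

section

variable (N : ℕ) [NeZero N]

/-- the bad set: all divisors of `N` (so that `heckeAlgebra N 2 (lrnS N)` is generated by the `T_ℓ`,
`ℓ ∤ N`, alone) -/
def lrnS : Set ℕ := {r | r ∣ N}

/-- the anemic Hecke algebra -/
abbrev LrnR : Type := ↥(heckeAlgebra N 2 (lrnS N))

/-- the inclusion of the anemic Hecke algebra into the full one -/
noncomputable def lrnIncl : LrnR N →+* ↥(heckeAlgebra N 2 (∅ : Set ℕ)) :=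
  (Subalgebra.inclusion (heckeAlgebra_mono (Set.empty_subset (lrnS N)))).toRingHom

theorem lrnIncl_coe (t : LrnR N) :
    ((lrnIncl N t : ↥(heckeAlgebra N 2 (∅ : Set ℕ))) : Module.End ℂ (CuspForm (Gamma0 N) 2))
      = (t : Module.End ℂ (CuspForm (Gamma0 N) 2)) :=
  Subalgebra.coe_inclusion (heckeAlgebra_mono (Set.empty_subset (lrnS N))) t

/-- the action of the anemic Hecke algebra on the lattice -/
noncomputable def lrnRho : LrnR N →+* Module.End ℤ ↥(tdmL N) :=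
  (tdmHecke N).comp (lrnIncl N)

theorem lrn_tdmHecke_injective : Function.Injective (tdmHecke N) := by
  rw [injective_iff_map_eq_zero]
  intro t ht
  apply Subtype.ext
  refine LinearMap.ext fun f => ?_
  have h1 := tdmHecke_spec N t f 0
  rw [ht, LinearMap.baseChange_zero, LinearMap.zero_apply] at h1
  have h2 := (tdmPhi N).injective (h1.symm.trans (map_zero (tdmPhi N)).symm)
  exact congrArg Prod.fst h2

theorem lrnRho_apply (t : LrnR N) : lrnRho N t = tdmHecke N (lrnIncl N t) := by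
  rw [lrnRho, RingHom.comp_apply]

theorem lrnRho_injective : Function.Injective (lrnRho N) := by
  intro t t' htt'
  rw [lrnRho_apply, lrnRho_apply] at htt'
  have h1 : lrnIncl N t = lrnIncl N t' := lrn_tdmHecke_injective N htt'
  have h2 := congrArg Subtype.val h1
  rw [lrnIncl_coe, lrnIncl_coe] at h2
  exact Subtype.ext h2

theorem lrnRho_T {ℓ : ℕ} (hℓ : ℓ.Prime) (hℓN : ¬ ℓ ∣ N) (hℓS : ℓ ∉ lrnS N) :
    lrnRho N (heckeAlgebra.T hℓ hℓN hℓS) = lrhT N ℓ hℓ hℓN := by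
  have h1 : lrnIncl N (heckeAlgebra.T hℓ hℓN hℓS) = heckeAlgebra.T hℓ hℓN (Set.notMem_empty ℓ) :=
    Subtype.ext (lrnIncl_coe N _)
  rw [lrnRho_apply, h1, tdmHecke_T N hℓ hℓN (Set.notMem_empty ℓ)]

/-- every element of the anemic Hecke algebra is self-adjoint -/
theorem lrnRho_selfadj (B : ↥(tdmL N) →ₗ[ℤ] ↥(tdmL N) →ₗ[ℤ] ℤ)
    (hsa : ∀ (ℓ : ℕ) (hℓ : ℓ.Prime) (hℓN : ¬ ℓ ∣ N) (x y : ↥(tdmL N)),
      B (lrhT N ℓ hℓ hℓN x) y = B x (lrhT N ℓ hℓ hℓN y))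
    (t : LrnR N) (x y : ↥(tdmL N)) : B (lrnRho N t x) y = B x (lrnRho N t y) := by
  obtain ⟨t, ht⟩ := t
  revert x y
  induction ht using Algebra.adjoin_induction with
  | mem t ht =>
    intro x y
    rcases ht with ⟨ℓ, hℓ, hℓN, hℓS, rfl⟩ | ⟨q, hqN, hq, hqS, rfl⟩
    · have h1 := lrnRho_T N hℓ hℓN hℓS
      rw [heckeAlgebra.T] at h1
      rw [h1]
      exact hsa ℓ hℓ hℓN x y
    · exact absurd hqN hqS
  | algebraMap r =>
    intro x y
    have h1 : (⟨algebraMap ℤ _ r, Subalgebra.algebraMap_mem _ r⟩ : LrnR N)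
        = algebraMap ℤ (LrnR N) r := Subtype.ext rfl
    rw [h1, eq_intCast, map_intCast]
    simp
  | add a b ha hb iha ihb =>
    intro x y
    have h1 : (⟨a + b, Subalgebra.add_mem _ ha hb⟩ : LrnR N) = ⟨a, ha⟩ + ⟨b, hb⟩ :=
      Subtype.ext rfl
    rw [h1, map_add, LinearMap.add_apply, LinearMap.add_apply, map_add, LinearMap.add_apply,
      map_add, iha, ihb]
  | mul a b ha hb iha ihb =>
    intro x y
    have h1 : (⟨a * b, Subalgebra.mul_mem _ ha hb⟩ : LrnR N) = ⟨a, ha⟩ * ⟨b, hb⟩ :=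
      Subtype.ext rfl
    rw [h1, map_mul, Module.End.mul_apply, iha, ihb, ← Module.End.mul_apply, ← map_mul, mul_comm,
      map_mul, Module.End.mul_apply]

/-- **the eigen-input** -/
theorem lrn_eigen_input {p : ℕ} (hp : p.Prime)
    (B : ↥(tdmL N) →ₗ[ℤ] ↥(tdmL N) →ₗ[ℤ] ℤ)
    (hBalt : ∀ x, B x x = 0) (hB : ∀ f : ↥(tdmL N) →ₗ[ℤ] ℤ, ∃ x, ∀ y, B x y = f y)
    (hsa : ∀ (ℓ : ℕ) (hℓ : ℓ.Prime) (hℓN : ¬ ℓ ∣ N) (x y : ↥(tdmL N)),
      B (lrhT N ℓ hℓ hℓN x) y = B x (lrhT N ℓ hℓ hℓN y))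
    (f : CuspForm (Gamma0 N) 2) (hf : f.IsNormalizedEigenform)
    (𝔪 : Ideal (integralClosure ℤ ℂ)) (hmax : 𝔪.IsMaximal)
    (hpm : (p : integralClosure ℤ ℂ) ∈ 𝔪) :
    ∃ v : ↥(tdmL N), (¬ ∃ z, v = (p : ℤ) • z) ∧
      ∀ (ℓ : ℕ) (hℓ : ℓ.Prime) (hℓN : ¬ ℓ ∣ N) (a : ℤ),
        (∃ c : integralClosure ℤ ℂ, (c : ℂ) = ModularFormClass.qCoeff f ℓ ∧
          c - (a : integralClosure ℤ ℂ) ∈ 𝔪) →
        ∃ z, lrhT N ℓ hℓ hℓN v - a • v = (p : ℤ) • z := by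
  set χ := terEigenChar hf (lrnS N) with hχ
  have h1 : 𝔪.comap χ ≠ ⊤ := Ideal.comap_ne_top χ hmax.ne_top
  have h2 : (p : LrnR N) ∈ 𝔪.comap χ := by
    rw [Ideal.mem_comap, map_natCast]
    exact hpm
  obtain ⟨v, hv, hvn⟩ := lrn_abs hp B hBalt hB (lrnRho N) (lrnRho_injective N)
    (lrnRho_selfadj N B hsa) (𝔪.comap χ) h1 h2
  refine ⟨v, hv, ?_⟩
  rintro ℓ hℓ hℓN a ⟨c, hc, hca⟩
  have hℓS : ℓ ∉ lrnS N := hℓN
  have h3 : χ (heckeAlgebra.T hℓ hℓN hℓS) = c :=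
    Subtype.ext ((terEigenChar_T hf (lrnS N) hℓ hℓN hℓS).trans hc.symm)
  obtain ⟨z, hz⟩ := hvn (heckeAlgebra.T hℓ hℓN hℓS - ((a : ℤ) : LrnR N)) (by
    rw [Ideal.mem_comap, map_sub, map_intCast, h3]
    exact hca)
  refine ⟨z, ?_⟩
  rw [← hz, map_sub, map_intCast, lrnRho_T, LinearMap.sub_apply]
  congr 1

omit [NeZero N] in
/-- the sign `ε` of the level raising congruence `a_q² ≡ (q+1)² mod 𝔪` -/
theorem lrn_sign (𝔪 : Ideal (integralClosure ℤ ℂ)) (hmax : 𝔪.IsMaximal) (q : ℕ) (aq : ℂ)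
    (hLR : ∃ a : integralClosure ℤ ℂ, (a : ℂ) = aq ∧
      a ^ 2 - ((q : integralClosure ℤ ℂ) + 1) ^ 2 ∈ 𝔪) :
    ∃ ε : ℤ, (ε = 1 ∨ ε = -1) ∧ ∃ c : integralClosure ℤ ℂ, (c : ℂ) = aq ∧
      c - ((ε * ((q : ℤ) + 1) : ℤ) : integralClosure ℤ ℂ) ∈ 𝔪 := by
  obtain ⟨a, ha, ha2⟩ := hLR
  have hprime : 𝔪.IsPrime := hmax.isPrime
  have h1 : (a - ((q : integralClosure ℤ ℂ) + 1)) * (a + ((q : integralClosure ℤ ℂ) + 1)) ∈ 𝔪 := by
    have : (a - ((q : integralClosure ℤ ℂ) + 1)) * (a + ((q : integralClosure ℤ ℂ) + 1))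
        = a ^ 2 - ((q : integralClosure ℤ ℂ) + 1) ^ 2 := by ring
    rw [this]
    exact ha2
  rcases hprime.mem_or_mem h1 with h2 | h2
  · refine ⟨1, Or.inl rfl, a, ha, ?_⟩
    have : ((1 * ((q : ℤ) + 1) : ℤ) : integralClosure ℤ ℂ) = (q : integralClosure ℤ ℂ) + 1 := by
      push_cast; ring
    rw [this]
    exact h2
  · refine ⟨-1, Or.inr rfl, a, ha, ?_⟩
    have : a - (((-1) * ((q : ℤ) + 1) : ℤ) : integralClosure ℤ ℂ)
        = a + ((q : integralClosure ℤ ℂ) + 1) := by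
      push_cast; ring
    rw [this]
    exact h2

end

end Fermat.Agent.LR
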