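/-
S41 package E (helper4), part 1: the Eisenstein computation.
A homomorphism `φ : Γ₀(N) → A` vanishing on `{d ≡ 1 mod N}` (i.e. factoring through `d mod N`)
satisfies `T_ℓ φ = (ℓ + 1) φ` for every prime `ℓ ∤ N`.
-/
import Mathlib
import Fermat.Agent.Lib.T1.Mono.Coset

set_option autoImplicit false

namespace Fermat.Agent.LR

open Matrix MatrixGroups CongruenceSubgroup Fermat.Agent.T1

variable {N : ℕ}

/-- a hom vanishing on `{d ≡ 1}` depends only on `d mod N`. -/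
theorem lrj_dep {A : Type*} [AddCommGroup A] (φ : Additive ↥(Gamma0 N) →+ A)
    (hφ : ∀ γ : Gamma0 N, ((γ.1 1 1 : ℤ) : ZMod N) = 1 → φ (Additive.ofMul γ) = 0)
    (γ γ' : Gamma0 N) (h : ((γ.1 1 1 : ℤ) : ZMod N) = ((γ'.1 1 1 : ℤ) : ZMod N)) :
    φ (Additive.ofMul γ) = φ (Additive.ofMul γ') := by
  have h1 : Gamma0Map N (γ * γ'⁻¹) * Gamma0Map N γ' = Gamma0Map N γ := by
    rw [← map_mul, inv_mul_cancel_right]
  have hu : IsUnit (Gamma0Map N γ') := (Group.isUnit γ').map (Gamma0Map N)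
  have h2 : Gamma0Map N (γ * γ'⁻¹) = 1 := by
    have h3 : Gamma0Map N γ = Gamma0Map N γ' := h
    rw [h3] at h1
    exact hu.mul_right_cancel (by rw [h1, one_mul])
  have h4 := hφ (γ * γ'⁻¹) h2
  rw [ofMul_mul, ofMul_inv, map_add, map_neg, add_neg_eq_zero] at h4
  exact h4

/-- an element of `Γ₀(N)` with `d ≡ ℓ mod N` (indeed `d = ℓ`). -/
theorem lrj_exists_d {ℓ : ℕ} (hcop : Nat.Coprime ℓ N) :
    ∃ g : Gamma0 N, ((g.1 1 1 : ℤ) : ZMod N) = (ℓ : ZMod N) := by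
  have h := Nat.isCoprime_iff_coprime.2 hcop
  obtain ⟨a, b, hab⟩ := h
  refine ⟨⟨⟨!![a, -b; (N : ℤ), (ℓ : ℤ)], ?_⟩, ?_⟩, ?_⟩
  · rw [Matrix.det_fin_two_of]; linear_combination hab
  · rw [Gamma0_mem]; simp
  · simp

/-- **Eisenstein computation**: `T_ℓ φ = (ℓ+1) φ` for `φ` factoring through `d mod N`. -/
theorem lrj_eisenstein [NeZero N] {ℓ : ℕ} (hℓ : ℓ.Prime) (hℓN : ¬ ℓ ∣ N)
    {A : Type*} [AddCommGroup A] (φ : Additive ↥(Gamma0 N) →+ A)
    (hφ : ∀ γ : Gamma0 N, ((γ.1 1 1 : ℤ) : ZMod N) = 1 → φ (Additive.ofMul γ) = 0) :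
    (tdmSysT N ℓ hℓ hℓN).hom A φ = (ℓ + 1) • φ := by
  set S := tdmSysT N ℓ hℓ hℓN with hS
  have hcop : Nat.Coprime ℓ N := (Nat.Prime.coprime_iff_not_dvd hℓ).2 hℓN
  obtain ⟨gℓ, hgℓ⟩ := lrj_exists_d hcop
  -- the auxiliary elements `g i` with `d (g i) ≡ (rep i) 1 1`
  let g : Option (Fin ℓ) → Gamma0 N := fun i => match i with
    | none => 1
    | some _ => gℓ
  have hg : ∀ i, (((g i).1 1 1 : ℤ) : ZMod N) = (((tdmRepT ℓ i) 1 1 : ℤ) : ZMod N) := by
    intro i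
    rcases i with _ | b
    · simp [g, tdmRepT]
    · simp [g, tdmRepT, hgℓ]
  have h10 : ∀ i, (tdmRepT ℓ i) 1 0 = 0 := by
    intro i
    rcases i with _ | b <;> simp [tdmRepT]
  refine AddMonoidHom.ext fun δ' => ?_
  obtain ⟨δ, rfl⟩ := Additive.ofMul.surjective δ'
  rw [tdmCosetSys.hom_apply]
  -- the key identity for each `i`
  have key : ∀ i, φ (Additive.ofMul (S.eps δ i)) =
      φ (Additive.ofMul δ) + (φ (Additive.ofMul (g i)) - φ (Additive.ofMul (g (S.sigma δ i)))) := by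
    intro i
    have hrm := S.rep_mul δ i
    rw [hS, tdmSysT_rep] at hrm
    have e11 := congrFun (congrFun hrm 1) 1
    rw [Matrix.mul_apply, Matrix.mul_apply, Fin.sum_univ_two, Fin.sum_univ_two, h10, zero_mul,
      zero_add] at e11
    have hε10 : (((S.eps δ i).1 1 0 : ℤ) : ZMod N) = 0 := Gamma0_mem.1 (S.eps δ i).2
    -- `d(ε_i g_{σ i}) ≡ d(g_i δ)`
    have hdep : φ (Additive.ofMul (S.eps δ i * g (S.sigma δ i))) =
        φ (Additive.ofMul (g i * δ)) := by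
      apply lrj_dep φ hφ
      have e1 : Gamma0Map N (S.eps δ i * g (S.sigma δ i)) =
          Gamma0Map N (S.eps δ i) * Gamma0Map N (g (S.sigma δ i)) := map_mul _ _ _
      have e2 : Gamma0Map N (g i * δ) = Gamma0Map N (g i) * Gamma0Map N δ := map_mul _ _ _
      show Gamma0Map N (S.eps δ i * g (S.sigma δ i)) = Gamma0Map N (g i * δ)
      rw [e1, e2]
      show (((S.eps δ i).1 1 1 : ℤ) : ZMod N) * (((g (S.sigma δ i)).1 1 1 : ℤ) : ZMod N) =
        (((g i).1 1 1 : ℤ) : ZMod N) * ((δ.1 1 1 : ℤ) : ZMod N)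
      rw [hg, hg]
      have := congrArg (fun z : ℤ => (z : ZMod N)) e11
      simp only [Int.cast_mul, Int.cast_add] at this
      rw [hS] at hε10
      rw [hε10, zero_mul, zero_add] at this
      rw [hS, ← this]
    rw [ofMul_mul, ofMul_mul, map_add, map_add] at hdep
    rw [eq_sub_of_add_eq hdep]
    abel
  simp_rw [key]
  rw [Finset.sum_add_distrib, Finset.sum_sub_distrib, Finset.sum_const, Finset.card_univ,
    Fintype.card_option, Fintype.card_fin]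
  have hperm : ∑ i, φ (Additive.ofMul (g (S.sigma δ i))) = ∑ i, φ (Additive.ofMul (g i)) :=
    Equiv.sum_comp (S.sigma δ) (fun i => φ (Additive.ofMul (g i)))
  rw [hperm, sub_self, add_zero]
  rfl

end Fermat.Agent.LR
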