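/-
S41 package E (helper4): the hypothesis `hIhara` of `lrf_main` for `L = tdmL N`,
`α₁ = res`, `α₂ = w ∘ res`, `T i₀ = T_ℓ` (any prime `ℓ ∤ N`), `e = ℓ + 1`.
From Ihara's lemma `lri_ihara` and the Eisenstein computation `lrj_eisenstein`.
-/
import Mathlib
import Fermat.Agent.Lib.LR.CSP.IharaMain
import Fermat.Agent.Lib.LR.Eisenstein
import Fermat.Agent.Lib.T2.F.ResCor
import Fermat.Agent.Lib.T1.Mono.Lattice

set_option autoImplicit false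

namespace Fermat.Agent.LR

open Matrix MatrixGroups CongruenceSubgroup ModularCurve.Period Fermat.Agent.T1 Fermat.Agent.T2

/-- a parabolic integral class all of whose values are divisible by `p` is `p` times a parabolic
integral class. -/
theorem lrj_div {N : ℕ} {p : ℕ} (hp : p ≠ 0) (ψ : ↥(tdmL N))
    (hψ : ∀ δ : Gamma0 N, (p : ℤ) ∣ ψ.1 (Additive.ofMul δ)) :
    ∃ z : ↥(tdmL N), ψ = (p : ℤ) • z := by
  have hp' : (p : ℤ) ≠ 0 := by exact_mod_cast hp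
  let z₀ : Additive ↥(Gamma0 N) →+ ℤ :=
    { toFun := fun δ => ψ.1 δ / (p : ℤ)
      map_zero' := by simp
      map_add' := fun a b => by
        obtain ⟨a, rfl⟩ := Additive.ofMul.surjective a
        obtain ⟨b, rfl⟩ := Additive.ofMul.surjective b
        rw [map_add]
        exact Int.add_ediv_of_dvd_left (hψ a) }
  have hz₀ : ∀ δ : Gamma0 N, (p : ℤ) * z₀ (Additive.ofMul δ) = ψ.1 (Additive.ofMul δ) :=
    fun δ => Int.mul_ediv_cancel' (hψ δ)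
  have hpar : z₀ ∈ tdmL N := by
    rw [mem_parabolicHoms_iff]
    intro γ hγ
    have h1 := hz₀ γ
    rw [(mem_parabolicHoms_iff.1 ψ.2) γ hγ] at h1
    rcases mul_eq_zero.1 h1 with h | h
    · exact absurd h hp'
    · exact h
  refine ⟨⟨z₀, hpar⟩, ?_⟩
  apply Subtype.ext
  refine AddMonoidHom.ext fun δ' => ?_
  obtain ⟨δ, rfl⟩ := Additive.ofMul.surjective δ'
  show ψ.1 (Additive.ofMul δ) = (p : ℤ) • z₀ (Additive.ofMul δ)
  rw [smul_eq_mul, hz₀]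

section AL

variable (N q : ℕ) [NeZero N] [hq : Fact q.Prime] (h : ¬ q ∣ N)

/-- `γ₀ = [[a₀, 1],[N c₀, q]] ∈ Γ₀(N)` with `W_q = γ₀ · diag(q,1)`. -/
def lrjGam : Gamma0 N :=
  ⟨⟨!![t2wA N q, 1; (N : ℤ) * t2wC N q, (q : ℤ)], by
    rw [Matrix.det_fin_two_of]
    linear_combination t2w_bezout N q hq.out h⟩, by
    rw [Gamma0_mem]; simp⟩

theorem lrj_W_eq : t2wMat N q (t2wA N q) (t2wC N q) =
    ((lrjGam N q h : SL(2, ℤ)) : Matrix (Fin 2) (Fin 2) ℤ) * !![(q : ℤ), 0; 0, 1] := by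
  ext i j
  fin_cases i <;> fin_cases j <;>
    simp [lrjGam, t2wMat, Matrix.mul_apply, Fin.sum_univ_two] <;> ring

/-- the Atkin–Lehner conjugate of `δ ∈ Γ₀(Nq)` is `Γ₀(N)`-conjugate to its second degeneracy. -/
theorem lrj_W_eps (δ : Gamma0 (N * q)) :
    Subgroup.inclusion (t2f5_Gamma0_le N q) ((t2fSysW N q h).eps δ ()) =
      lrjGam N q h * lraDeg N q hq.out.ne_zero δ * (lrjGam N q h)⁻¹ := by
  set D := lraDeg N q hq.out.ne_zero δ with hD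
  set g := lrjGam N q h with hg
  set W := t2wMat N q (t2wA N q) (t2wC N q) with hW
  have hrm : W * ((δ : SL(2, ℤ)) : Matrix (Fin 2) (Fin 2) ℤ) =
      (((t2fSysW N q h).eps δ () : SL(2, ℤ)) : Matrix (Fin 2) (Fin 2) ℤ) * W :=
    (t2fSysW N q h).rep_mul δ ()
  obtain ⟨e00, e01, e10, e11⟩ := lraDeg_entries (N := N) hq.out.ne_zero δ
  have hDd : ((D : SL(2, ℤ)) : Matrix (Fin 2) (Fin 2) ℤ) * !![(q : ℤ), 0; 0, 1] =
      !![(q : ℤ), 0; 0, 1] * ((δ : SL(2, ℤ)) : Matrix (Fin 2) (Fin 2) ℤ) := by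
    ext i j
    fin_cases i <;> fin_cases j <;>
      simp [Matrix.mul_apply, Fin.sum_univ_two, hD, e00, e01, e11, mul_comm]
    exact e10
  have hgi : (((g⁻¹ : Gamma0 N) : SL(2, ℤ)) : Matrix (Fin 2) (Fin 2) ℤ) *
      ((g : SL(2, ℤ)) : Matrix (Fin 2) (Fin 2) ℤ) = 1 := by
    rw [← Matrix.SpecialLinearGroup.coe_mul, ← Subgroup.coe_mul, inv_mul_cancel]
    rfl
  have hEW : (((g * D * g⁻¹ : Gamma0 N) : SL(2, ℤ)) : Matrix (Fin 2) (Fin 2) ℤ) * W =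
      W * ((δ : SL(2, ℤ)) : Matrix (Fin 2) (Fin 2) ℤ) := by
    rw [Subgroup.coe_mul, Subgroup.coe_mul, Matrix.SpecialLinearGroup.coe_mul,
      Matrix.SpecialLinearGroup.coe_mul, hW, lrj_W_eq N q h, ← hg]
    rw [Matrix.mul_assoc _ _ (_ * _), ← Matrix.mul_assoc _ _ !![(q : ℤ), 0; 0, 1], hgi,
      Matrix.one_mul, Matrix.mul_assoc, hDd, Matrix.mul_assoc]
  have hdet : W.det ≠ 0 := by
    rw [hW, t2wMat_det N q _ _ (t2w_bezout N q hq.out h)]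
    exact_mod_cast hq.out.ne_zero
  have hcan := tdm_mul_right_cancel hdet (hrm.symm.trans hEW.symm)
  apply Subtype.ext
  apply Subtype.ext
  exact hcan

end AL

section main

variable {N q p : ℕ} [NeZero N] [hq : Fact q.Prime] [hpp : Fact p.Prime]

/-- **`hIhara`**: if `res x + w (res y) ∈ p · L_{Nq}` then `(T_ℓ - (ℓ+1)) x, (T_ℓ - (ℓ+1)) y ∈ p · L_N`
for every prime `ℓ ∤ N`. -/
theorem lrj_ihara (hp2 : p ≠ 2) (hpq : p ≠ q) (h : ¬ q ∣ N)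
    {ℓ : ℕ} (hℓ : ℓ.Prime) (hℓN : ¬ ℓ ∣ N) (x y : ↥(tdmL N))
    (hxy : ∃ z : ↥(tdmL (N * q)), t2fResPar (t2f5_Gamma0_le N q) ℤ ℤ x +
      (t2fSysW N q h).homPar ℤ ℤ (t2fResPar (t2f5_Gamma0_le N q) ℤ ℤ y) = (p : ℤ) • z) :
    (∃ z : ↥(tdmL N), (tdmSysT N ℓ hℓ hℓN).homPar ℤ ℤ x - ((ℓ : ℤ) + 1) • x = (p : ℤ) • z) ∧
    (∃ z : ↥(tdmL N), (tdmSysT N ℓ hℓ hℓN).homPar ℤ ℤ y - ((ℓ : ℤ) + 1) • y = (p : ℤ) • z) := by
  have hN : N ≠ 0 := NeZero.ne N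
  have hNq : N.Coprime q := ((Nat.Prime.coprime_iff_not_dvd hq.out).2 h).symm
  set red : ℤ →+ ZMod p := Int.castAddHom (ZMod p) with hred
  set φ₁ : Additive ↥(Gamma0 N) →+ ZMod p := red.comp x.1 with hφ₁
  set φ₂ : Additive ↥(Gamma0 N) →+ ZMod p := -(red.comp y.1) with hφ₂
  have h₁ : IsParabolicHom (Gamma0 N) φ₁ := by
    intro γ hγ
    show red (x.1 (Additive.ofMul γ)) = 0
    rw [(mem_parabolicHoms_iff.1 x.2) γ hγ, map_zero]
  have h₂ : IsParabolicHom (Gamma0 N) φ₂ := by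
    intro γ hγ
    show -(red (y.1 (Additive.ofMul γ))) = 0
    rw [(mem_parabolicHoms_iff.1 y.2) γ hγ, map_zero, neg_zero]
  have hcompat : ∀ γ : Gamma0 (N * q),
      φ₁ (Additive.ofMul ⟨γ.1, lraCast_mem_lraA.1 (lraC_le_lraA (lraCast_mem_lraC.2 γ.2))⟩) =
        φ₂ (Additive.ofMul (lraDeg N q hq.out.ne_zero γ)) := by
    intro γ
    obtain ⟨z, hz⟩ := hxy
    have hz' := congrArg (fun f : ↥(tdmL (N * q)) => f.1 (Additive.ofMul γ)) hz
    beta_reduce at hz'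
    have e1 : (t2fResPar (t2f5_Gamma0_le N q) ℤ ℤ x +
        (t2fSysW N q h).homPar ℤ ℤ (t2fResPar (t2f5_Gamma0_le N q) ℤ ℤ y)).1 (Additive.ofMul γ) =
        x.1 (Additive.ofMul (Subgroup.inclusion (t2f5_Gamma0_le N q) γ)) +
          y.1 (Additive.ofMul (Subgroup.inclusion (t2f5_Gamma0_le N q)
            ((t2fSysW N q h).eps γ ()))) := by
      show (t2fRes (t2f5_Gamma0_le N q) ℤ x.1) (Additive.ofMul γ) +
        ((t2fSysW N q h).hom ℤ (t2fRes (t2f5_Gamma0_le N q) ℤ y.1)) (Additive.ofMul γ) = _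
      rw [tdmCosetSys.hom_apply, Finset.univ_unique, Finset.sum_singleton, t2fRes_apply,
        t2fRes_apply]
    rw [e1, lrj_W_eps N q h γ, ofMul_mul, ofMul_mul, ofMul_inv, map_add, map_add, map_neg] at hz'
    have e2 : (↑((p : ℤ) • z) : Additive ↥(Gamma0 (N * q)) →+ ℤ) (Additive.ofMul γ) =
        (p : ℤ) * z.1 (Additive.ofMul γ) := rfl
    rw [e2] at hz'
    have hz'' := congrArg red hz'
    rw [hred] at hz''
    simp only [Int.coe_castAddHom, Int.cast_add, Int.cast_neg, Int.cast_mul, Int.cast_natCast,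
      ZMod.natCast_self, zero_mul] at hz''
    show ((x.1 (Additive.ofMul _) : ℤ) : ZMod p) =
      -(((y.1 (Additive.ofMul (lraDeg N q hq.out.ne_zero γ)) : ℤ)) : ZMod p)
    have e3 : (Subgroup.inclusion (t2f5_Gamma0_le N q) γ : Gamma0 N) =
        ⟨γ.1, lraCast_mem_lraA.1 (lraC_le_lraA (lraCast_mem_lraC.2 γ.2))⟩ := rfl
    rw [e3] at hz''
    linear_combination hz''
  obtain ⟨k₁, k₂⟩ := lri_ihara hp2 hpq hN hNq φ₁ φ₂ h₁ h₂ hcompat
  have k₂' : ∀ γ : Gamma0 N, ((γ.1 1 1 : ℤ) : ZMod N) = 1 →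
      (red.comp y.1) (Additive.ofMul γ) = 0 := by
    intro γ hγ
    have := k₂ γ hγ
    rw [hφ₂, AddMonoidHom.neg_apply, neg_eq_zero] at this
    exact this
  have E₁ := lrj_eisenstein hℓ hℓN φ₁ k₁
  have E₂ := lrj_eisenstein hℓ hℓN (red.comp y.1) k₂'
  rw [hφ₁, tdmCosetSys.hom_comp] at E₁
  rw [tdmCosetSys.hom_comp] at E₂
  have fin : ∀ (u : ↥(tdmL N)),
      red.comp ((tdmSysT N ℓ hℓ hℓN).hom ℤ u.1) = (ℓ + 1) • red.comp u.1 →
      ∃ z : ↥(tdmL N), (tdmSysT N ℓ hℓ hℓN).homPar ℤ ℤ u - ((ℓ : ℤ) + 1) • u = (p : ℤ) • z := by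
    intro u hu
    apply lrj_div hpp.out.ne_zero
    intro δ
    have h1 := congrArg (fun f : Additive ↥(Gamma0 N) →+ ZMod p => f (Additive.ofMul δ)) hu
    simp only [AddMonoidHom.comp_apply, AddMonoidHom.smul_apply, hred, Int.coe_castAddHom,
      nsmul_eq_mul] at h1
    have e : (((tdmSysT N ℓ hℓ hℓN).homPar ℤ ℤ u - ((ℓ : ℤ) + 1) • u : ↥(tdmL N)) :
        Additive ↥(Gamma0 N) →+ ℤ) (Additive.ofMul δ) =
        (tdmSysT N ℓ hℓ hℓN).hom ℤ u.1 (Additive.ofMul δ) -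
          ((ℓ : ℤ) + 1) * u.1 (Additive.ofMul δ) := rfl
    rw [e, ← ZMod.intCast_zmod_eq_zero_iff_dvd]
    push_cast
    rw [h1]
    push_cast
    ring
  exact ⟨fin x E₁, fin y E₂⟩

end main

end Fermat.Agent.LR
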