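/-
S41 (level raising), package W: the final wiring `lrm_main`.

Inputs: package A (`lrf_main`, Lib/LR/Alg), package B (Lib/LR/HeckeLat), package D (`lro_final`,
Lib/LR/Wire/ExtractFinal), package E (`lrj_ihara`, Lib/LR/Ihara), F4 (`lre_exists_prime_not_eisenstein`,
Lib/LR/E/Main); the duality interface F2 and the eigen-input (package C) enter as explicit hypotheses
(`LrmDual`, `LrmEigenIn`) which the final file `Fermat/Agent/S41.lean` discharges.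
-/
import Mathlib
import Fermat.Agent.Lib.LR.Alg
import Fermat.Agent.Lib.LR.HeckeLat
import Fermat.Agent.Lib.LR.Ihara
import Fermat.Agent.Lib.LR.E.Main
import Fermat.Agent.Lib.LR.Wire.ExtractFinal

set_option autoImplicit false
set_option linter.unusedSectionVars false
set_option linter.unusedVariables false
set_option linter.style.haveILetI false

open Fermat.Agent.T1 Fermat.Agent.T2 CongruenceSubgroup ModularFormClass ModularCurve.Period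
open WeierstrassCurve WeierstrassCurve.Affine WeierstrassCurve.Affine.Point

namespace Fermat.Agent.LR

noncomputable section

/-- the F2 interface (Poincaré duality on the lattices `L_M`), as a hypothesis on a family of
pairings -/
def LrmDual (B : ∀ (M : ℕ) [NeZero M], ↥(tdmL M) →ₗ[ℤ] ↥(tdmL M) →ₗ[ℤ] ℤ) : Prop :=
  (∀ (M : ℕ) [NeZero M] (x : ↥(tdmL M)), B M x x = 0) ∧
  (∀ (M : ℕ) [NeZero M] (f : ↥(tdmL M) →ₗ[ℤ] ℤ), ∃ x, ∀ y, B M x y = f y) ∧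
  (∀ (N q : ℕ) [NeZero N] [Fact q.Prime] (h : ¬ q ∣ N) (x : ↥(tdmL N)) (y : ↥(tdmL (N * q))),
    B (N * q) (lrhRes N q x) y = B N x (lrhCor N q h y)) ∧
  (∀ (N q : ℕ) [NeZero N] [Fact q.Prime] (h : ¬ q ∣ N) (x y : ↥(tdmL (N * q))),
    B (N * q) (lrhW N q h x) (lrhW N q h y) = B (N * q) x y)

/-- the output of package C (eigen-input at level `N`) -/
def LrmEigenIn (N : ℕ) [NeZero N] (p q : ℕ) (hq : q.Prime) (hqN : ¬ q ∣ N)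
    (W : WeierstrassCurve ℤ) : Prop :=
  ∃ ε : ℤ, (ε = 1 ∨ ε = -1) ∧ ∃ v : ↥(tdmL N), (¬ ∃ z, v = (p : ℤ) • z) ∧
    (∀ (ℓ : ℕ) (hℓ : ℓ.Prime) (hℓN : ¬ ℓ ∣ N), W.IsGoodPrimeFor ℓ → ℓ ≠ p →
      ∃ z, (tdmSysT N ℓ hℓ hℓN).homPar ℤ ℤ v - W.apOfModel ℓ • v = (p : ℤ) • z) ∧
    (∃ z, (tdmSysT N q hq hqN).homPar ℤ ℤ v - (ε * ((q : ℤ) + 1)) • v = (p : ℤ) • z)

/-- **S41 wiring.**  Duality (F2) + eigen-input (C) ⇒ the conclusion of S41. -/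
theorem lrm_main (B : ∀ (M : ℕ) [NeZero M], ↥(tdmL M) →ₗ[ℤ] ↥(tdmL M) →ₗ[ℤ] ℤ) (hB : LrmDual B)
    (E : WeierstrassCurve ℚ) [E.IsElliptic] {W : WeierstrassCurve ℤ} (hW : W.IsIntegralModelOf E)
    {p N q : ℕ} [NeZero N] (hp : p.Prime) (hp2 : p ≠ 2) (hq : q.Prime) (hqN : ¬ q ∣ N)
    (hqp : q ≠ p)
    (hirr : GaloisRepIsIrreducible (K := AlgebraicClosure ℚ) ℚ E p)
    (hC : LrmEigenIn N p q hq hqN W) :
    ∃ (g : CuspForm (Gamma0 (N * q)) 2) (𝔪' : Ideal (integralClosure ℤ ℂ)),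
      g.IsNormalizedEigenform ∧ 𝔪'.IsMaximal ∧ (p : integralClosure ℤ ℂ) ∈ 𝔪' ∧
      (∀ ℓ : ℕ, ℓ.Prime → W.IsGoodPrimeFor ℓ → ¬ ℓ ∣ N * q → ℓ ≠ p →
        ∃ a : integralClosure ℤ ℂ, (a : ℂ) = ModularFormClass.qCoeff g ℓ ∧
          a - ((W.apOfModel ℓ : ℤ) : integralClosure ℤ ℂ) ∈ 𝔪') ∧
      g.IsNewAt q := by
  classical
  obtain ⟨hBalt, hBuni, hBrc, hBw⟩ := hB
  haveI : Fact q.Prime := ⟨hq⟩
  haveI : Fact p.Prime := ⟨hp⟩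
  have hN0 : N ≠ 0 := NeZero.ne N
  -- the non-Eisenstein prime
  obtain ⟨ℓ₀, hℓ₀, hℓ₀T, hℓ₀good, hℓ₀ne⟩ :=
    lre_exists_prime_not_eisenstein E hW hp hp2 hirr (N * q * p).primeFactors
  have hNqp0 : N * q * p ≠ 0 :=
    Nat.mul_ne_zero (Nat.mul_ne_zero hN0 hq.ne_zero) hp.ne_zero
  have hℓ₀dvd : ¬ ℓ₀ ∣ N * q * p := fun hd =>
    hℓ₀T (Nat.mem_primeFactors.mpr ⟨hℓ₀, hd, hNqp0⟩)
  have hℓ₀Nq : ¬ ℓ₀ ∣ N * q := fun hd => hℓ₀dvd (Dvd.dvd.mul_right hd p)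
  have hℓ₀N : ¬ ℓ₀ ∣ N := fun hd => hℓ₀Nq (Dvd.dvd.mul_right hd q)
  have hℓ₀p : ℓ₀ ≠ p := fun he => hℓ₀dvd (he ▸ Dvd.intro_left (N * q) rfl)
  haveI : Fact ℓ₀.Prime := ⟨hℓ₀⟩
  -- the index type
  let ι : Type := {ℓ : ℕ // ℓ.Prime ∧ W.IsGoodPrimeFor ℓ ∧ ¬ ℓ ∣ N * q ∧ ℓ ≠ p}
  have hιN : ∀ i : ι, ¬ i.1 ∣ N := fun i hd => i.2.2.2.1 (Dvd.dvd.mul_right hd q)
  let i₀ : ι := ⟨ℓ₀, hℓ₀, hℓ₀good, hℓ₀Nq, hℓ₀p⟩
  obtain ⟨ε, hε, v, hv, hvT, hvq⟩ := hC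
  -- package A
  obtain ⟨k, hk1, hk2, hk, hkT⟩ := lrf_main (L := ↥(tdmL N)) (L' := ↥(tdmL (N * q))) hp
    (fun i : ι => lrhT N i.1 i.2.1 (hιN i))
    (fun i : ι => lrhT (N * q) i.1 i.2.1 i.2.2.2.1)
    (lrhT N q hq hqN)
    (lrhRes N q) ((lrhW N q hqN) ∘ₗ (lrhRes N q))
    (lrhCor N q hqN) ((lrhCor N q hqN) ∘ₗ (lrhW N q hqN))
    (B N) (B (N * q)) (hBalt N) (hBuni N) (hBalt (N * q)) (hBuni (N * q))
    (hBrc N q hqN)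
    (fun x y => lrh_adj₂_of N q hqN (B N) (B (N * q)) (hBrc N q hqN) (hBw N q hqN) x y)
    (fun i x => lrh_res_T N q i.1 i.2.1 i.2.2.2.1 (hιN i) x)
    (fun i x => by
      show lrhW N q hqN (lrhRes N q (lrhT N i.1 i.2.1 (hιN i) x)) = _
      rw [lrh_res_T N q i.1 i.2.1 i.2.2.2.1 (hιN i) x, lrh_W_T]
      rfl)
    (fun i y => lrh_cor_T N q hqN i.1 i.2.1 i.2.2.2.1 (hιN i) y)
    (fun i y => by
      show lrhCor N q hqN (lrhW N q hqN (lrhT (N * q) i.1 i.2.1 i.2.2.2.1 y)) = _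
      rw [lrh_W_T, lrh_cor_T N q hqN i.1 i.2.1 i.2.2.2.1 (hιN i)]
      rfl)
    (q : ℤ)
    (fun x => lrh_cor_res N q hqN x)
    (fun x => by
      show lrhCor N q hqN (lrhW N q hqN (lrhW N q hqN (lrhRes N q x))) = _
      rw [lrh_W_W, lrh_cor_res])
    (fun x => lrh_cor_W_res N q hqN x)
    (fun x => lrh_cor_W_res N q hqN x)
    (fun i : ι => W.apOfModel i.1) i₀ ((ℓ₀ : ℤ) + 1)
    (by
      intro hd
      apply hℓ₀ne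
      have : ((ℓ₀ : ℤ) + 1 - W.apOfModel ℓ₀) = -(W.apOfModel ℓ₀ - ((ℓ₀ : ℤ) + 1)) := by ring
      rw [this]
      exact (dvd_neg).mpr hd)
    (fun x y => lrh_T_selfadj_of N ℓ₀ hℓ₀N (B N) (B (N * ℓ₀)) (hBalt N) (hBalt (N * ℓ₀))
      (hBrc N ℓ₀ hℓ₀N) (hBw N ℓ₀ hℓ₀N) x y)
    (fun x y hxy => lrj_ihara hp2 hqp.symm hqN hℓ₀ hℓ₀N x y hxy)
    ε hε v hv
    (fun i => hvT i.1 i.2.1 (hιN i) i.2.2.1 i.2.2.2.2)
    hvq
  -- package D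
  exact lro_final (h := hqN) W k hk1 hk2 hk
    (fun ℓ hℓ hℓNq hgood hℓp => hkT ⟨ℓ, hℓ, hgood, hℓNq, hℓp⟩)

end

end Fermat.Agent.LR
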